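/-
GATE-S (S33) / FRAME², layer L2 = GLUE (helper34; helper92 5142 §4): the NODAL disc frame built from
two components.

`R1 : RedData K F k Ft1`, `R2 : RedData K F k Ft2` are the two Gauss valuations of the generic fibre
(`RedCompat R1 R2`), `Φ1 : FibreHyp R1`, `Φ2 : FibreHyp R2` the two local frames with THE SAME global
unit ball (`Φ2.B = Φ1.B`, in the instance `ball2 = Rw₁ ⊓ Rw₂`), `P j`, `Q j` the two branches of the
nodes.  This file: definitions only.

* `SpPt Φ1 Φ2`   : the smooth special points `{q // q ∈ Φ1.good} ⊕ {q // q ∈ Φ2.good}`;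
* `comp1`, `comp2` : the point `s : SpPt` as a divisor on the first / second component;
* `spDiv1 T`, `spDiv2 T` : `Σ_{s ∈ T} comp_i s`;
* `glueData`     : the `DiscData K F k (Ft1 × Ft2) (SpPt Φ1 Φ2)`;
  `NS S := ∃ T : Finset, ↑T = S ∧ finrank (gluedSpace P Q (spDiv1 T) (spDiv2 T)) = 1`;
* `LocalFacts Φ` : the facts (F1)–(F5) of ONE component, in the vocabulary of `GS/Frame/Local.lean`
  (the targets of the L1 ports);
* `GlueHyp`      : what the instance owes besides `Φ1`, `Φ2`: the ball is `Rw₁ ⊓ Rw₂`, the radical is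
  the kernel of the pair reduction, Riemann's inequality and rank preservation on the generic fibre,
  and (L5): the pair reduction of `L(Σ X_j) ∩ B`, one point `X_j` in each of finitely many distinct
  good discs, lies in the glued space of the special points.
-/
import Mathlib
import Fermat.Agent.GS.Frame.Vocab
import Fermat.Agent.GS.Frame.Local
import Fermat.Agent.GK.MultiVal.TwoRedData
import Fermat.Agent.GS.Nod.Generic
import Fermat.Agent.GH.Add.Sections

set_option autoImplicit false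

noncomputable section

open AlgebraicCurve

namespace Fermat.Agent.GS.Frame.Glue

open Fermat.Agent.RRh45 Fermat.Agent.GJ.J1 Fermat.Agent.GH Fermat.Agent.GK.MultiVal
open Fermat.Agent.GS.Frame Fermat.Agent.GS.Frame.Local Fermat.Agent.GS.Nod

open scoped Classical

variable {K F k Ft1 Ft2 : Type*} [Field K] [Field F] [Algebra K F] [Field k]
  [Field Ft1] [Algebra k Ft1] [Field Ft2] [Algebra k Ft2]
variable {R1 : RedData K F k Ft1} {R2 : RedData K F k Ft2}

/-! ### the facts of one component -/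

/-- **The facts (F1)–(F5) of one component**, in the local vocabulary: the targets of the L1 ports
of `GH/Disc/Values`, `GH/Disc/Taylor`, `GH/L/ChartPt`, `GH/L/Inj`, `GH/Add/DivBook`. -/
structure LocalFacts {Ft : Type*} [Field Ft] [Algebra k Ft] {R : RedData K F k Ft}
    (Φ : FibreHyp R) : Prop where
  /-- (F1) values of disc-regular integral functions exist and are integral. -/
  exists_value : ∀ {Q : Place k Ft}, Q ∈ Φ.good → ∀ {e : F}, e ∈ Local.Odisc Φ Q →
    ∀ P ∈ Local.disc Φ Q, ∃ a ∈ R.A, ValueAt P e a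
  /-- (F2) the parameter of a chart point takes values in the maximal ideal on its disc. -/
  param_lt_one : ∀ {Q : Place k Ft} (pt : ChartPt Φ Q), ∀ P ∈ Local.disc Φ Q, ∀ a : K,
    ValueAt P pt.t a → R.A.valuation a < 1
  /-- (F3) Taylor expansion with remainder, evaluated on the disc. -/
  taylor : ∀ {Q : Place k Ft} (pt : ChartPt Φ Q) {e : F}, e ∈ Local.Odisc Φ Q → ∀ m : ℕ,
    ∃ γ : ℕ → K, (∀ i, γ i ∈ R.A) ∧ ∀ P ∈ Local.disc Φ Q, ∀ a b : K, ValueAt P pt.t a →
      ValueAt P e b →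
      R.A.valuation (b - ∑ i ∈ Finset.range m, γ i * a ^ i) ≤ R.A.valuation a ^ m
  /-- (F4) a chart parameter separates the points of its disc. -/
  disc_inj : ∀ {Q : Place k Ft} (pt : ChartPt Φ Q) (a : K) (P P' : Place K F),
    P ∈ Local.disc Φ Q → P' ∈ Local.disc Φ Q → ValueAt P pt.t a → ValueAt P' pt.t a → P = P'
  /-- (F5) one disc with a chart point, `h ≡ 1` modulo the radical. -/
  ord_on_chart_disc : ∀ {Q : Place k Ft} (pt : ChartPt Φ Q) {h : F}, h - 1 ∈ Φ.rad →
    (∀ P ∈ Local.disc Φ Q, -(if P = pt.P then 1 else 0) ≤ P.ord h) →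
    ∃ Ps ∈ Local.disc Φ Q, ValueAt Ps (pt.t * h) 0 ∧
      (∀ P' ∈ Local.disc Φ Q, ValueAt P' (pt.t * h) 0 → P' = Ps) ∧
      ∀ P ∈ Local.disc Φ Q, P.ord h = (if P = Ps then 1 else 0) - (if P = pt.P then 1 else 0)

/-! ### the special points of the nodal fibre -/

/-- the smooth special points of the two components. -/
abbrev SpPt (Φ1 : FibreHyp R1) (Φ2 : FibreHyp R2) : Type _ :=
  {q : Place k Ft1 // q ∈ Φ1.good} ⊕ {q : Place k Ft2 // q ∈ Φ2.good}

variable {Φ1 : FibreHyp R1} {Φ2 : FibreHyp R2}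

/-- a special point as a divisor of the first component. -/
def comp1 : SpPt Φ1 Φ2 → Divisor k Ft1
  | Sum.inl q => Finsupp.single q.1 1
  | Sum.inr _ => 0

/-- a special point as a divisor of the second component. -/
def comp2 : SpPt Φ1 Φ2 → Divisor k Ft2
  | Sum.inl _ => 0
  | Sum.inr q => Finsupp.single q.1 1

/-- the part of a finite set of special points on the first component, as a divisor. -/
def spDiv1 (T : Finset (SpPt Φ1 Φ2)) : Divisor k Ft1 := ∑ s ∈ T, comp1 s

/-- the part of a finite set of special points on the second component, as a divisor. -/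
def spDiv2 (T : Finset (SpPt Φ1 Φ2)) : Divisor k Ft2 := ∑ s ∈ T, comp2 s

/-- the residue disc of a special point. -/
def discOf (Φ1 : FibreHyp R1) (Φ2 : FibreHyp R2) : SpPt Φ1 Φ2 → Set (Place K F)
  | Sum.inl q => Local.disc Φ1 q.1
  | Sum.inr q => Local.disc Φ2 q.1

/-- "`t` is a chart parameter at the special point": integral for both valuations, its reduction on
the component of the point is a uniformiser there, and `t - a` is a unit of the ball for every
integral constant `a`. -/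
def IsParamOf (Φ1 : FibreHyp R1) (Φ2 : FibreHyp R2) : SpPt Φ1 Φ2 → F → Prop
  | Sum.inl q, t => ∃ ht : t ∈ Φ1.B, q.1.ord (R1.red ⟨t, Φ1.B_le t ht⟩) = 1 ∧
      ∀ a ∈ R1.A, IsU Φ1 (t - algebraMap K F a)
  | Sum.inr q, t => ∃ ht : t ∈ Φ2.B, q.1.ord (R2.red ⟨t, Φ2.B_le t ht⟩) = 1 ∧
      ∀ a ∈ R2.A, IsU Φ2 (t - algebraMap K F a)

/-- non-speciality of a set of special points: it is finite and the glued `L`-space of its sum is
the line of constants. -/
def NSOf {ι : Type*} (P : ι → Place k Ft1) (Q : ι → Place k Ft2) (Φ1 : FibreHyp R1)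
    (Φ2 : FibreHyp R2) (S : Set (SpPt Φ1 Φ2)) : Prop :=
  ∃ T : Finset (SpPt Φ1 Φ2), (T : Set (SpPt Φ1 Φ2)) = S ∧
    Module.finrank k (gluedSpace P Q (spDiv1 T) (spDiv2 T)) = 1

theorem mem_B2 (hB2 : Φ2.B = Φ1.B) {x : F} (hx : x ∈ Φ1.B) : x ∈ Φ2.B := by
  rw [hB2]; exact hx

/-- the pair reduction on the common ball. -/
def redPair (Φ1 : FibreHyp R1) (Φ2 : FibreHyp R2) (hB2 : Φ2.B = Φ1.B) : Φ1.B →+* Ft1 × Ft2 where
  toFun x := (R1.red ⟨x, Φ1.B_le x x.2⟩, R2.red ⟨x, Φ2.B_le x (mem_B2 hB2 x.2)⟩)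
  map_one' := Prod.ext (map_one R1.red) (map_one R2.red)
  map_mul' x y := Prod.ext (map_mul R1.red ⟨x, Φ1.B_le x x.2⟩ ⟨y, Φ1.B_le y y.2⟩)
    (map_mul R2.red ⟨x, Φ2.B_le x (mem_B2 hB2 x.2)⟩ ⟨y, Φ2.B_le y (mem_B2 hB2 y.2)⟩)
  map_zero' := Prod.ext (map_zero R1.red) (map_zero R2.red)
  map_add' x y := Prod.ext (map_add R1.red ⟨x, Φ1.B_le x x.2⟩ ⟨y, Φ1.B_le y y.2⟩)
    (map_add R2.red ⟨x, Φ2.B_le x (mem_B2 hB2 x.2)⟩ ⟨y, Φ2.B_le y (mem_B2 hB2 y.2)⟩)

theorem redPair_apply (hB2 : Φ2.B = Φ1.B) (x : Φ1.B) :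
    redPair Φ1 Φ2 hB2 x =
      (R1.red ⟨x, Φ1.B_le x x.2⟩, R2.red ⟨x, Φ2.B_le x (mem_B2 hB2 x.2)⟩) := rfl

/-- **The nodal disc frame** glued from two components. -/
def glueData (hc : RedCompat R1 R2) (Φ1 : FibreHyp R1) (Φ2 : FibreHyp R2) (hB2 : Φ2.B = Φ1.B)
    (hexcl : ∀ (X : Place K F) (q : Place k Ft1) (q' : Place k Ft2),
      Φ1.rOf X = some q → Φ2.rOf X ≠ some q')
    {ι : Type*} (P : ι → Place k Ft1) (Q : ι → Place k Ft2) (g : ℤ) :
    DiscData K F k (Ft1 × Ft2) (SpPt Φ1 Φ2) where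
  A := R1.A
  res := R1.res
  res_surjective := R1.res_surjective
  res_eq_zero_iff := fun a => Fermat.Agent.GH.AddSec.res_eq_zero_iff (R := R1) a
  B := Φ1.B
  mem_A_iff := fun a =>
    ⟨fun h => Φ1.const_mem_B a h, fun h => (R1.mem_A_iff a).2 (Φ1.B_le _ h)⟩
  red := redPair Φ1 Φ2 hB2
  red_algebraMap := fun a => by
    have ha2 : (a : K) ∈ R2.A := hc.A_eq ▸ a.2
    rw [redPair_apply]
    refine Prod.ext ?_ ?_
    · exact R1.red_algebraMap a
    · show R2.red ⟨algebraMap K F (a : K), _⟩ = algebraMap k Ft2 (R1.res a)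
      rw [hc.res_eq (a : K) a.2 ha2]
      exact R2.red_algebraMap ⟨(a : K), ha2⟩
  disc := discOf Φ1 Φ2
  disc_disjoint := by
    rintro (q | q) (q' | q') hne X hX hX'
    · exact Local.disc_disjoint Φ1 (fun h => hne (by rw [Subtype.ext h])) hX hX'
    · exact hexcl X q.1 q'.1 hX hX'
    · exact hexcl X q'.1 q.1 hX' hX
    · exact Local.disc_disjoint Φ2 (fun h => hne (by rw [Subtype.ext h])) hX hX'
  IsParam := IsParamOf Φ1 Φ2
  NS := NSOf P Q Φ1 Φ2
  g := g

/-! ### the hypotheses of the glueing -/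

/-- **What the instance owes for the glueing**, besides the two local frames. -/
structure GlueHyp (hc : RedCompat R1 R2) (Φ1 : FibreHyp R1) (Φ2 : FibreHyp R2) (hB2 : Φ2.B = Φ1.B)
    (hexcl : ∀ (X : Place K F) (q : Place k Ft1) (q' : Place k Ft2),
      Φ1.rOf X = some q → Φ2.rOf X ≠ some q')
    {ι : Type*} (P : ι → Place k Ft1) (Q : ι → Place k Ft2) (g : ℤ) : Prop where
  /-- the common ball contains `Rw₁ ⊓ Rw₂`. -/
  ball : ∀ x : F, x ∈ R1.Rw → x ∈ R2.Rw → x ∈ Φ1.B
  /-- the two radicals agree. -/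
  hrad2 : Φ2.rad = Φ1.rad
  /-- the radical is the kernel of the pair reduction. -/
  rad_of_red : ∀ (x : F) (hx : x ∈ Φ1.B), R1.red ⟨x, Φ1.B_le x hx⟩ = 0 →
    R2.red ⟨x, Φ2.B_le x (mem_B2 hB2 hx)⟩ = 0 → x ∈ Φ1.rad
  /-- (F9) Riemann's inequality on the generic fibre. -/
  riemann : ∀ D : Divisor K F,
    Divisor.degree D + 1 - g ≤ (Module.finrank K (riemannRochSpace D) : ℤ)
  /-- (F8) rank preservation of the pair reduction. -/
  orth : ∀ D : Divisor K F, 0 ≤ D →
    Module.Finite k (redSpace (glueData hc Φ1 Φ2 hB2 hexcl P Q g) D) ∧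
    Module.finrank k (redSpace (glueData hc Φ1 Φ2 hB2 hexcl P Q g) D) =
      Module.finrank K (riemannRochSpace D)
  /-- (L5) the pair reduction of `L(Σ X_j) ∩ B`, one point in each of finitely many distinct good
  discs, lies in the glued space of the special points. -/
  L5 : ∀ {J : Type} [Fintype J] (Qf : J → SpPt Φ1 Φ2), Function.Injective Qf →
    ∀ X : J → Place K F, (∀ j, X j ∈ discOf Φ1 Φ2 (Qf j)) →
    redSpace (glueData hc Φ1 Φ2 hB2 hexcl P Q g) (∑ j, Finsupp.single (X j) (1 : ℤ)) ≤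
      gluedSpace P Q (∑ j, comp1 (Qf j)) (∑ j, comp2 (Qf j))

end Fermat.Agent.GS.Frame.Glue
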