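/-
GATE-S (S33) / FRAME², layer L2 (glue), INSTANCE side (helper90; helper34 5227): **the hypotheses
`GlueHyp` of the nodal disc frame when the global unit ball is `ball2 R1 R2 = Rw₁ ⊓ Rw₂` and the
radical is `rad2 R1 R2`** (helper16's `fibreHyp1` / `fibreHyp2`: both by `rfl`).

* `redSpace_glueData_eq_redBall` : `redSpace (glueData …) D` is the reduction of the unit ball of
  `L(D)` for the norm `max(|·|₁, |·|₂)` (`GK/MultiVal/NormBall.redBall` for `ball2`, `red2`);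
* `redSpace_glueData_eq_redSpace2` : … and it is helper16's `LSR2.redSpace2 hc D`;
* `orth_of_orthoBases` : **(F8)** from orthonormal bases of `ball2` (`TwoRedData.hasOrthoBases2`), for
  EVERY divisor `D`;
* `orth_of_orth2` : **(F8)** from the `orth2` field of `LSR2.NodalHyp`;
* `riemann_of_rrF` : **(F9)** Riemann's inequality from Riemann's theorem at large degree;
* `ball_of_eq`, `rad_of_red_of_eq` : the fields `ball`, `rad_of_red`;
* `glueHyp_of_ball2` : `GlueHyp hc Φ1 Φ2 hB2 hexcl P Q g` from orthonormal bases + `rrF` + (L5);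
* `glueHyp_of_nodalHyp` : the same from `H : LSR2.NodalHyp …` (its fields `degF`, `rrF`, `orth2`) + (L5).
-/
import Mathlib
import Fermat.Agent.GS.Frame.Glue.Data
import Fermat.Agent.GS.Nodal.LSR2Defs
import Fermat.Agent.RR_helper45.Finite

set_option autoImplicit false

noncomputable section

open AlgebraicCurve

namespace Fermat.Agent.GS.Frame.Glue.Ball2

open Fermat.Agent.RRh45 Fermat.Agent.GJ.J1 Fermat.Agent.GH Fermat.Agent.GK.MultiVal
  Fermat.Agent.GJ.S37MinDiv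
open Fermat.Agent.GS.Frame Fermat.Agent.GS.Frame.Local Fermat.Agent.GS.Frame.Glue
  Fermat.Agent.GS.Nod

open scoped Classical

variable {K F k Ft1 Ft2 : Type*} [Field K] [Field F] [Algebra K F] [Field k]
  [Field Ft1] [Algebra k Ft1] [Field Ft2] [Algebra k Ft2]
variable {R1 : RedData K F k Ft1} {R2 : RedData K F k Ft2}
variable (hc : RedCompat R1 R2) (Φ1 : FibreHyp R1) (Φ2 : FibreHyp R2) (hB2 : Φ2.B = Φ1.B)
  (hexcl : ∀ (X : Place K F) (q : Place k Ft1) (q' : Place k Ft2),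
    Φ1.rOf X = some q → Φ2.rOf X ≠ some q')
  {ι : Type*} (P : ι → Place k Ft1) (Q : ι → Place k Ft2) (g : ℤ)

/-! ### the reduced `L`-spaces -/

theorem mem_redSpace_glueData_iff (hB1 : Φ1.B = ball2 R1 R2) {D : Divisor K F} {z : Ft1 × Ft2} :
    z ∈ redSpace (glueData hc Φ1 Φ2 hB2 hexcl P Q g) D ↔
      ∃ (x : F) (h1 : x ∈ R1.Rw) (h2 : x ∈ R2.Rw),
        x ∈ riemannRochSpace D ∧ R1.red ⟨x, h1⟩ = z.1 ∧ R2.red ⟨x, h2⟩ = z.2 := by
  rw [mem_redSpace]
  constructor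
  · rintro ⟨x, hx, rfl⟩
    have hxb : (x : F) ∈ ball2 R1 R2 := hB1 ▸ x.2
    exact ⟨x, (mem_ball2.mp hxb).1, (mem_ball2.mp hxb).2, hx, rfl, rfl⟩
  · rintro ⟨x, h1, h2, hx, e1, e2⟩
    have hxb : x ∈ Φ1.B := hB1.symm ▸ mem_ball2.mpr ⟨h1, h2⟩
    exact ⟨⟨x, hxb⟩, hx, Prod.ext e1 e2⟩

/-- the reduced `L`-space of the nodal frame is helper16's `redSpace2`. -/
theorem redSpace_glueData_eq_redSpace2 (hB1 : Φ1.B = ball2 R1 R2) (D : Divisor K F) :
    redSpace (glueData hc Φ1 Φ2 hB2 hexcl P Q g) D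
      = Fermat.Agent.GS.Nodal.LSR2.redSpace2 hc D := by
  ext z
  rw [mem_redSpace_glueData_iff hc Φ1 Φ2 hB2 hexcl P Q g hB1,
    Fermat.Agent.GS.Nodal.LSR2.mem_redSpace2]

/-- the reduced `L`-space of the nodal frame is the reduction of the unit ball of `L(D)` for the
norm `max(|·|₁, |·|₂)`. -/
theorem redSpace_glueData_eq_redBall (hB1 : Φ1.B = ball2 R1 R2) (D : Divisor K F) :
    redSpace (glueData hc Φ1 Φ2 hB2 hexcl P Q g) D =
      redBall (k := k) (ball2 R1 R2) (red2 R1 R2).toAddMonoidHom (riemannRochSpace D) := by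
  apply le_antisymm
  · intro z hz
    obtain ⟨x, h1, h2, hx, e1, e2⟩ :=
      (mem_redSpace_glueData_iff hc Φ1 Φ2 hB2 hexcl P Q g hB1).1 hz
    exact Submodule.subset_span ⟨⟨x, mem_ball2.mpr ⟨h1, h2⟩⟩, hx, Prod.ext e1 e2⟩
  · unfold redBall
    rw [Submodule.span_le]
    rintro z ⟨x, hx, rfl⟩
    exact (mem_redSpace_glueData_iff hc Φ1 Φ2 hB2 hexcl P Q g hB1).2
      ⟨x, (mem_ball2.mp x.2).1, (mem_ball2.mp x.2).2, hx, rfl, rfl⟩

/-! ### (F8) -/

/-- **(F8)** rank preservation from orthonormal bases of `ball2` (`TwoRedData.hasOrthoBases2`),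
for every divisor with finite-dimensional `L(D)`. -/
theorem orth_of_orthoBases (hB1 : Φ1.B = ball2 R1 R2)
    (ho : HasOrthoBases R1.A (ball2 R1 R2) (rad2 R1 R2))
    (D : Divisor K F) [FiniteDimensional K (riemannRochSpace D)] :
    Module.Finite k (redSpace (glueData hc Φ1 Φ2 hB2 hexcl P Q g) D) ∧
      Module.finrank k (redSpace (glueData hc Φ1 Φ2 hB2 hexcl P Q g) D) =
        Module.finrank K (riemannRochSpace D) := by
  rw [redSpace_glueData_eq_redBall hc Φ1 Φ2 hB2 hexcl P Q g hB1 D]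
  exact ⟨finiteDimensional_redBall2 hc ho (riemannRochSpace D),
    finrank_redBall2 hc ho (riemannRochSpace D)⟩

/-- the `orth2` field of `LSR2.NodalHyp` from orthonormal bases of `ball2`. -/
theorem orth2_of_orthoBases [FiniteResidues K F] [HasPrincipalDivisors K F] [Nonempty (Place K F)]
    (ho : HasOrthoBases R1.A (ball2 R1 R2) (rad2 R1 R2)) (D : Divisor K F) :
    Module.finrank k (Fermat.Agent.GS.Nodal.LSR2.redSpace2 hc D)
      = Module.finrank K (riemannRochSpace D) := by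
  have h : Fermat.Agent.GS.Nodal.LSR2.redSpace2 hc D =
      redBall (k := k) (ball2 R1 R2) (red2 R1 R2).toAddMonoidHom (riemannRochSpace D) := by
    apply le_antisymm
    · rintro z ⟨x, h1, h2, hx, e1, e2⟩
      exact Submodule.subset_span ⟨⟨x, mem_ball2.mpr ⟨h1, h2⟩⟩, hx, Prod.ext e1 e2⟩
    · unfold redBall
      rw [Submodule.span_le]
      rintro z ⟨x, hx, rfl⟩
      exact ⟨x, (mem_ball2.mp x.2).1, (mem_ball2.mp x.2).2, hx, rfl, rfl⟩
  rw [h]
  exact finrank_redBall2 hc ho (riemannRochSpace D)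

/-- **(F8)** rank preservation from the `orth2` field of `LSR2.NodalHyp`. -/
theorem orth_of_orth2 [FiniteResidues K F] [HasPrincipalDivisors K F] [Nonempty (Place K F)]
    (hB1 : Φ1.B = ball2 R1 R2)
    (horth : ∀ D : Divisor K F, Module.finrank k (Fermat.Agent.GS.Nodal.LSR2.redSpace2 hc D)
      = Module.finrank K (riemannRochSpace D))
    (D : Divisor K F) (hD : 0 ≤ D) :
    Module.Finite k (redSpace (glueData hc Φ1 Φ2 hB2 hexcl P Q g) D) ∧
      Module.finrank k (redSpace (glueData hc Φ1 Φ2 hB2 hexcl P Q g) D) =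
        Module.finrank K (riemannRochSpace D) := by
  have h2 : Module.finrank k (redSpace (glueData hc Φ1 Φ2 hB2 hexcl P Q g) D)
      = Module.finrank K (riemannRochSpace D) := by
    rw [redSpace_glueData_eq_redSpace2 hc Φ1 Φ2 hB2 hexcl P Q g hB1 D]
    exact horth D
  have h1 : 0 < Module.finrank K (riemannRochSpace D) := by
    have : Nontrivial (riemannRochSpace D) :=
      ⟨⟨⟨1, one_mem_riemannRochSpace hD⟩, 0, fun h => one_ne_zero (congrArg Subtype.val h)⟩⟩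
    exact Module.finrank_pos
  rw [← h2] at h1
  exact ⟨Module.finite_of_finrank_pos h1, h2⟩

/-! ### (F9) -/

/-- **(F9)** Riemann's inequality for every divisor, from Riemann's theorem at large degree. -/
theorem riemann_of_rrF [FiniteResidues K F] [HasPrincipalDivisors K F] [Nonempty (Place K F)]
    (degF : ∀ X : Place K F, X.deg = 1) {c : ℤ}
    (rrF : ∀ D : Divisor K F, c ≤ Divisor.degree D →
      (Module.finrank K (riemannRochSpace D) : ℤ) = Divisor.degree D + 1 - g)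
    (D : Divisor K F) :
    Divisor.degree D + 1 - g ≤ (Module.finrank K (riemannRochSpace D) : ℤ) := by
  have P₀ : Place K F := Classical.arbitrary _
  set N : ℕ := (c - Divisor.degree D).toNat with hN
  have hle : D ≤ D + Finsupp.single P₀ (N : ℤ) :=
    le_add_of_nonneg_right (Finsupp.single_nonneg.mpr (by positivity))
  have hdeg : Divisor.degree (D + Finsupp.single P₀ (N : ℤ)) = Divisor.degree D + N := by
    rw [map_add, Divisor.degree_single, degF P₀]; simp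
  have hc' : c ≤ Divisor.degree (D + Finsupp.single P₀ (N : ℤ)) := by
    rw [hdeg]
    have := Int.self_le_toNat (c - Divisor.degree D)
    omega
  have h1 := rrF _ hc'
  have h2 := finrank_le_of_le hle
  rw [hdeg] at h1 h2
  omega

/-! ### the ball and the radical -/

theorem ball_of_eq (hB1 : Φ1.B = ball2 R1 R2) (x : F) (h1 : x ∈ R1.Rw) (h2 : x ∈ R2.Rw) :
    x ∈ Φ1.B := hB1.symm ▸ mem_ball2.mpr ⟨h1, h2⟩

theorem rad_of_red_of_eq (hrad1 : Φ1.rad = (rad2 R1 R2 : Set F)) (x : F) (hx : x ∈ Φ1.B)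
    (e1 : R1.red ⟨x, Φ1.B_le x hx⟩ = 0) (e2 : R2.red ⟨x, Φ2.B_le x (mem_B2 hB2 hx)⟩ = 0) :
    x ∈ Φ1.rad := by
  rw [hrad1]
  show x ∈ rad2 R1 R2
  rw [mem_rad2]
  exact ⟨(R1.Rw.valuation_lt_one_iff _).mp ((R1.red_eq_zero_iff _).mp e1),
    (R2.Rw.valuation_lt_one_iff _).mp ((R2.red_eq_zero_iff _).mp e2)⟩

/-! ### the package -/

/-- **`GlueHyp` for `B = ball2`, `rad = rad2`** from orthonormal bases of `ball2`, Riemann's theorem
on the generic fibre and (L5). -/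
theorem glueHyp_of_ball2 [FiniteResidues K F] [HasPrincipalDivisors K F] [Nonempty (Place K F)]
    (hB1 : Φ1.B = ball2 R1 R2) (hrad1 : Φ1.rad = (rad2 R1 R2 : Set F)) (hrad2 : Φ2.rad = Φ1.rad)
    (ho : HasOrthoBases R1.A (ball2 R1 R2) (rad2 R1 R2))
    (degF : ∀ X : Place K F, X.deg = 1) {c : ℤ}
    (rrF : ∀ D : Divisor K F, c ≤ Divisor.degree D →
      (Module.finrank K (riemannRochSpace D) : ℤ) = Divisor.degree D + 1 - g)
    (hL5 : ∀ {J : Type} [Fintype J] (Qf : J → SpPt Φ1 Φ2), Function.Injective Qf →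
      ∀ X : J → Place K F, (∀ j, X j ∈ discOf Φ1 Φ2 (Qf j)) →
      redSpace (glueData hc Φ1 Φ2 hB2 hexcl P Q g) (∑ j, Finsupp.single (X j) (1 : ℤ)) ≤
        gluedSpace P Q (∑ j, comp1 (Qf j)) (∑ j, comp2 (Qf j))) :
    GlueHyp hc Φ1 Φ2 hB2 hexcl P Q g where
  ball := ball_of_eq Φ1 hB1
  hrad2 := hrad2
  rad_of_red := rad_of_red_of_eq Φ1 Φ2 hB2 hrad1
  riemann := riemann_of_rrF g degF rrF
  orth := fun D _ => orth_of_orthoBases hc Φ1 Φ2 hB2 hexcl P Q g hB1 ho D
  L5 := hL5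

/-- **`GlueHyp` for `B = ball2`, `rad = rad2`** from the `orth2`-shaped rank preservation
(field of `LSR2.NodalHyp`), Riemann's theorem on the generic fibre and (L5). -/
theorem glueHyp_of_orth2 [FiniteResidues K F] [HasPrincipalDivisors K F] [Nonempty (Place K F)]
    (hB1 : Φ1.B = ball2 R1 R2) (hrad1 : Φ1.rad = (rad2 R1 R2 : Set F)) (hrad2 : Φ2.rad = Φ1.rad)
    (horth : ∀ D : Divisor K F, Module.finrank k (Fermat.Agent.GS.Nodal.LSR2.redSpace2 hc D)
      = Module.finrank K (riemannRochSpace D))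
    (degF : ∀ X : Place K F, X.deg = 1) {c : ℤ}
    (rrF : ∀ D : Divisor K F, c ≤ Divisor.degree D →
      (Module.finrank K (riemannRochSpace D) : ℤ) = Divisor.degree D + 1 - g)
    (hL5 : ∀ {J : Type} [Fintype J] (Qf : J → SpPt Φ1 Φ2), Function.Injective Qf →
      ∀ X : J → Place K F, (∀ j, X j ∈ discOf Φ1 Φ2 (Qf j)) →
      redSpace (glueData hc Φ1 Φ2 hB2 hexcl P Q g) (∑ j, Finsupp.single (X j) (1 : ℤ)) ≤
        gluedSpace P Q (∑ j, comp1 (Qf j)) (∑ j, comp2 (Qf j))) :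
    GlueHyp hc Φ1 Φ2 hB2 hexcl P Q g where
  ball := ball_of_eq Φ1 hB1
  hrad2 := hrad2
  rad_of_red := rad_of_red_of_eq Φ1 Φ2 hB2 hrad1
  riemann := riemann_of_rrF g degF rrF
  orth := orth_of_orth2 hc Φ1 Φ2 hB2 hexcl P Q g hB1 horth
  L5 := hL5

/-- **`GlueHyp` for `B = ball2`, `rad = rad2`** from helper16's `LSR2.NodalHyp` (fields `degF`, `rrF`,
`orth2`) and (L5). -/
theorem glueHyp_of_nodalHyp [FiniteResidues K F] [HasPrincipalDivisors K F] [Nonempty (Place K F)]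
    {C : Divisor K F} {C₁ : Divisor k Ft1} {C₂ : Divisor k Ft2} {c : ℤ} {n₀ : ℕ}
    (H : Fermat.Agent.GS.Nodal.LSR2.NodalHyp hc P Q C C₁ C₂ g c n₀)
    (hB1 : Φ1.B = ball2 R1 R2) (hrad1 : Φ1.rad = (rad2 R1 R2 : Set F)) (hrad2 : Φ2.rad = Φ1.rad)
    (hL5 : ∀ {J : Type} [Fintype J] (Qf : J → SpPt Φ1 Φ2), Function.Injective Qf →
      ∀ X : J → Place K F, (∀ j, X j ∈ discOf Φ1 Φ2 (Qf j)) →
      redSpace (glueData hc Φ1 Φ2 hB2 hexcl P Q g) (∑ j, Finsupp.single (X j) (1 : ℤ)) ≤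
        gluedSpace P Q (∑ j, comp1 (Qf j)) (∑ j, comp2 (Qf j))) :
    GlueHyp hc Φ1 Φ2 hB2 hexcl P Q g :=
  glueHyp_of_orth2 hc Φ1 Φ2 hB2 hexcl P Q g hB1 hrad1 hrad2 H.orth2 H.degF H.rrF hL5

end Fermat.Agent.GS.Frame.Glue.Ball2
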