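/-
GATE-S (S33) / FRAME², layer L2 = GLUE, fact (F7) (helper37; split of helper34 board 5227):
the CONSTANCY CRITERION `DiscFacts.const_of_small` for the nodal disc frame `glueData …` of
`GS/Frame/Glue/Data.lean`, from `GlueHyp` + the local facts of the two components.

Port of `GH/Add/Sections.red_eq_algebraMap_of_values` with the `e ↦ e + c` trick (helper92 5142 §4):
`c` a constant such that BOTH reductions of `e + c` are nonzero (`k` infinite); then
`t_i (e + c) - b_i` is a unit of the common ball, the fibre formula (FF2) of the component of `Q_i`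
applies and shows that the reduction has no pole at `Q_i`; (L5) puts the pair reduction in the glued
space of `Σ Q_i + Σ G_j`, hence in that of `Σ G_j`, which is the line of constants (`NS`).
-/
import Mathlib
import Fermat.Agent.GS.Frame.Glue.Data
import Fermat.Agent.GS.Frame.Gen.Sections

set_option autoImplicit false

noncomputable section

open AlgebraicCurve

namespace Fermat.Agent.GS.Frame.Glue

open Fermat.Agent.RRh45 Fermat.Agent.GJ.J1 Fermat.Agent.GK.MultiVal Fermat.Agent.S24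
open Fermat.Agent.GH (ValueAt)
open Fermat.Agent.GH.AddSec Fermat.Agent.GJ.S37MinDiv
open Fermat.Agent.GS.Frame Fermat.Agent.GS.Frame.Local Fermat.Agent.GS.Nod

open scoped Classical

variable {K F k : Type*} [Field K] [Field F] [Algebra K F] [Field k]

/-! ### one component -/

section One

variable {Ft : Type*} [Field Ft] [Algebra k Ft] {R : RedData K F k Ft}

/-- an element of the valuation ring with nonzero reduction is a unit of the valuation ring. -/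
theorem inv_mem_Rw_of_red_ne_zero {x : F} (hx : x ∈ R.Rw) (h : R.red ⟨x, hx⟩ ≠ 0) :
    x⁻¹ ∈ R.Rw := by
  have hnot : (⟨x, hx⟩ : R.Rw) ∉ IsLocalRing.maximalIdeal R.Rw := fun hm =>
    h ((R.red_eq_zero_iff _).2 hm)
  obtain ⟨u, hu⟩ := IsLocalRing.notMem_maximalIdeal.mp hnot
  have h1 : ((u : R.Rw) : F) * (((u⁻¹ : (R.Rw)ˣ) : R.Rw) : F) = 1 := by
    calc ((u : R.Rw) : F) * (((u⁻¹ : (R.Rw)ˣ) : R.Rw) : F)
        = (((u : R.Rw) * ((u⁻¹ : (R.Rw)ˣ) : R.Rw) : R.Rw) : F) := rfl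
      _ = ((1 : R.Rw) : F) := by rw [u.mul_inv]
      _ = 1 := rfl
  rw [hu] at h1
  have h2 : x⁻¹ = (((u⁻¹ : (R.Rw)ˣ) : R.Rw) : F) := (eq_inv_of_mul_eq_one_right h1).symm
  rw [h2]
  exact (((u⁻¹ : (R.Rw)ˣ) : R.Rw)).2

variable [HasPrincipalDivisors K F]

/-- a unit of the ball with a zero on the disc of a good `q` and no pole on that disc: its reduction
vanishes at `q`. -/
theorem ord_red_pos_of_zero_loc (Φ : FibreHyp R) {f : F} (hU : IsU Φ f) {q : Place k Ft}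
    (hq : q ∈ Φ.good) (hreg : ∀ P ∈ Local.disc Φ q, 0 ≤ P.ord f) {P₀ : Place K F}
    (hP₀ : P₀ ∈ Local.disc Φ q) (h0 : 0 < P₀.ord f) :
    0 < q.ord (R.red ⟨f, Φ.B_le f hU.2.1⟩) := by
  obtain ⟨Df, hDf, -⟩ := HasPrincipalDivisors.exists_divisor (K := K) f hU.1
  rw [Local.ord_red_eq_sum Φ hU hDf hq]
  refine lt_of_lt_of_le h0 ?_
  have key : ∀ s : Finset (Place K F), (∀ P ∈ s, 0 ≤ P.ord f) → P₀ ∈ s →
      P₀.ord f ≤ ∑ P ∈ s, P.ord f := fun s h1 h2 =>
    Finset.single_le_sum (f := fun P : Place K F => P.ord f) h1 h2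
  apply key
  · intro P hP
    exact hreg P (Finset.mem_filter.mp hP).2
  · rw [Finset.mem_filter, Finsupp.mem_support_iff, hDf P₀]
    exact ⟨by omega, hP₀⟩

/-- **no pole at `q`**: if `t e - b` is a unit of the ball, `red t` is a uniformiser at the good
point `q`, `red e ≠ 0`, `t e` has no pole on the disc of `q` and takes the small value `b` at a
point of the disc, then `red e` has no pole at `q`. -/
theorem ord_red_nonneg_loc (Φ : FibreHyp R) {q : Place k Ft} (hq : q ∈ Φ.good) {t e : F} {b : K}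
    (htB : t ∈ Φ.B) (heB : e ∈ Φ.B) (hfU : IsU Φ (t * e - algebraMap K F b))
    (hb : R.A.valuation b < 1) (hredt : q.ord (R.red ⟨t, Φ.B_le t htB⟩) = 1)
    (hrede : R.red ⟨e, Φ.B_le e heB⟩ ≠ 0)
    (hreg : ∀ P ∈ Local.disc Φ q, t * e ∈ P.toValuationSubring) {X : Place K F}
    (hX : X ∈ Local.disc Φ q) (hval : ValueAt X (t * e) b) :
    0 ≤ q.ord (R.red ⟨e, Φ.B_le e heB⟩) := by
  have hbA : b ∈ R.A := mem_A_of_val_lt_one hb
  set tt : R.Rw := ⟨t, Φ.B_le t htB⟩ with htt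
  set ee : R.Rw := ⟨e, Φ.B_le e heB⟩ with hee
  set bb : R.Rw := ⟨algebraMap K F b, (R.mem_A_iff _).1 hbA⟩ with hbb
  have hredb : R.red bb = 0 := by
    have := R.red_algebraMap ⟨b, hbA⟩
    rw [hbb, this, (res_eq_zero_iff (R := R) ⟨b, hbA⟩).mpr hb, map_zero]
  have hredt0 : R.red tt ≠ 0 := by
    intro h
    rw [h, Place.ord_zero] at hredt
    exact zero_ne_one hredt
  have hfeq : (⟨t * e - algebraMap K F b, Φ.B_le _ hfU.2.1⟩ : R.Rw) = tt * ee - bb := rfl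
  have hredf : R.red ⟨t * e - algebraMap K F b, Φ.B_le _ hfU.2.1⟩ = R.red tt * R.red ee := by
    rw [hfeq, map_sub, map_mul, hredb, sub_zero]
  have hf0 : t * e - algebraMap K F b ≠ 0 := hfU.1
  have hpos := ord_red_pos_of_zero_loc Φ hfU hq (fun P hP => by
      rw [PlaceB.ord_nonneg_iff _ hf0]
      exact sub_mem (hreg P hP) (P.algebraMap_mem' _)) hX (by
      rw [← val_lt_one_iff_ord_pos _ hf0]
      exact hval)
  rw [hredf, Place.ord_mul _ hredt0 hrede, hredt] at hpos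
  omega

end One

/-- shrinking a Riemann–Roch space at places without pole. -/
theorem mem_riemannRochSpace_of_add {Ft : Type*} [Field Ft] [Algebra k Ft] {x : Ft}
    {A E' : Divisor k Ft} (hE' : 0 ≤ E') (hx : x ∈ riemannRochSpace (A + E'))
    (hA : ∀ v : Place k Ft, A v ≠ 0 → x = 0 ∨ 0 ≤ v.ord x) : x ∈ riemannRochSpace E' := by
  rw [mem_riemannRochSpace_iff] at hx ⊢
  intro v
  by_cases hx0 : x = 0
  · exact Or.inl hx0
  right
  have h1 := (hx v).resolve_left hx0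
  have h2 : 0 ≤ E' v := by simpa using Finsupp.le_def.mp hE' v
  by_cases hAv : A v = 0
  · rw [Finsupp.add_apply, hAv, zero_add] at h1
    exact h1
  · have := (hA v hAv).resolve_left hx0
    omega

/-! ### the two components -/

section Two

variable {Ft1 Ft2 : Type*} [Field Ft1] [Algebra k Ft1] [Field Ft2] [Algebra k Ft2]
variable {R1 : RedData K F k Ft1} {R2 : RedData K F k Ft2}
variable {Φ1 : FibreHyp R1} {Φ2 : FibreHyp R2}
variable {hc : RedCompat R1 R2} {hB2 : Φ2.B = Φ1.B}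
  {hexcl : ∀ (X : Place K F) (q : Place k Ft1) (q' : Place k Ft2),
    Φ1.rOf X = some q → Φ2.rOf X ≠ some q'}
  {ι' : Type*} {P : ι' → Place k Ft1} {Q : ι' → Place k Ft2} {g : ℤ}

local notation "Φg" => glueData hc Φ1 Φ2 hB2 hexcl P Q g

/-- both reductions nonzero: a unit of the common ball, for both local frames. -/
theorem isU_of_red_ne_zero (G : GlueHyp hc Φ1 Φ2 hB2 hexcl P Q g) {f : F} (hf : f ∈ Φ1.B)
    (h1 : R1.red ⟨f, Φ1.B_le f hf⟩ ≠ 0)
    (h2 : R2.red ⟨f, Φ2.B_le f (mem_B2 hB2 hf)⟩ ≠ 0) : IsU Φ1 f ∧ IsU Φ2 f := by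
  have hf0 : f ≠ 0 := by
    rintro rfl
    apply h1
    have : (⟨0, Φ1.B_le 0 hf⟩ : R1.Rw) = 0 := rfl
    rw [this, map_zero]
  have hinv : f⁻¹ ∈ Φ1.B :=
    G.ball _ (inv_mem_Rw_of_red_ne_zero _ h1) (inv_mem_Rw_of_red_ne_zero _ h2)
  exact ⟨⟨hf0, hf, hinv⟩, ⟨hf0, mem_B2 hB2 hf, mem_B2 hB2 hinv⟩⟩

/-- the reduction of `t e - b`, `b` small. -/
theorem red_mul_sub_small {Ft : Type*} [Field Ft] [Algebra k Ft] {R : RedData K F k Ft}
    (Φ : FibreHyp R) {t e : F} {b : K} (htB : t ∈ Φ.B) (heB : e ∈ Φ.B)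
    (hfB : t * e - algebraMap K F b ∈ Φ.B) (hb : R.A.valuation b < 1) :
    R.red ⟨t * e - algebraMap K F b, Φ.B_le _ hfB⟩
      = R.red ⟨t, Φ.B_le t htB⟩ * R.red ⟨e, Φ.B_le e heB⟩ := by
  have hbA : b ∈ R.A := mem_A_of_val_lt_one hb
  set bb : R.Rw := ⟨algebraMap K F b, (R.mem_A_iff _).1 hbA⟩ with hbb
  have hredb : R.red bb = 0 := by
    have := R.red_algebraMap ⟨b, hbA⟩
    rw [hbb, this, (res_eq_zero_iff (R := R) ⟨b, hbA⟩).mpr hb, map_zero]
  have hfeq : (⟨t * e - algebraMap K F b, Φ.B_le _ hfB⟩ : R.Rw)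
      = ⟨t, Φ.B_le t htB⟩ * ⟨e, Φ.B_le e heB⟩ - bb := rfl
  rw [hfeq, map_sub, map_mul, hredb, sub_zero]

/-- the values of a chart parameter on its disc exist and are small. -/
theorem exists_param_value (L1 : LocalFacts Φ1) (L2 : LocalFacts Φ2) {s : SpPt Φ1 Φ2}
    (p : CPt Φg s) {X : Place K F} (hX : X ∈ (Φg).disc s) :
    ∃ τ : K, ValueAt X p.t τ ∧ R1.A.valuation τ < 1 := by
  rcases s with q | q
  · obtain ⟨ht, hred, hU⟩ := p.hpar
    let cp : Local.ChartPt Φ1 q.1 := ⟨q.2, p.P, p.hP, p.t, p.ht, p.ht0, hred, hU⟩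
    obtain ⟨a, haA, hav⟩ := L1.exists_value q.2 p.ht X hX
    exact ⟨a, hav, L1.param_lt_one cp X hX a hav⟩
  · obtain ⟨ht, hred, hU⟩ := p.hpar
    have htO : p.t ∈ Local.Odisc Φ2 q.1 := ⟨mem_B2 hB2 p.ht.1, p.ht.2⟩
    let cp : Local.ChartPt Φ2 q.1 := ⟨q.2, p.P, p.hP, p.t, htO, p.ht0, hred, hU⟩
    obtain ⟨a, haA, hav⟩ := L2.exists_value q.2 htO X hX
    have h := L2.param_lt_one cp X hX a hav
    refine ⟨a, hav, ?_⟩
    rw [hc.A_eq]
    exact h

/-- "the pair `z` has no pole at the special point `s`" (on the component of `s`). -/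
def NoPoleAt (Φ1 : FibreHyp R1) (Φ2 : FibreHyp R2) : SpPt Φ1 Φ2 → Ft1 × Ft2 → Prop
  | Sum.inl q, z => 0 ≤ q.1.ord z.1
  | Sum.inr q, z => 0 ≤ q.1.ord z.2

variable [HasPrincipalDivisors K F]

/-- **no pole at a special point**: `e` in the ball with both reductions nonzero, `t e` without pole
on the disc of `s` and with a small value at some point of the disc. -/
theorem noPoleAt_red (G : GlueHyp hc Φ1 Φ2 hB2 hexcl P Q g) {s : SpPt Φ1 Φ2} (p : CPt Φg s)
    {e : F} (heB : e ∈ Φ1.B) (h1 : R1.red ⟨e, Φ1.B_le e heB⟩ ≠ 0)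
    (h2 : R2.red ⟨e, Φ2.B_le e (mem_B2 hB2 heB)⟩ ≠ 0)
    (hreg : ∀ P' ∈ (Φg).disc s, p.t * e ∈ P'.toValuationSubring) {X : Place K F}
    (hX : X ∈ (Φg).disc s) {b : K} (hval : ValueAt X (p.t * e) b)
    (hb : R1.A.valuation b < 1) :
    NoPoleAt Φ1 Φ2 s (R1.red ⟨e, Φ1.B_le e heB⟩, R2.red ⟨e, Φ2.B_le e (mem_B2 hB2 heB)⟩) := by
  have hb2 : R2.A.valuation b < 1 := by rw [← hc.A_eq]; exact hb
  have hbB : algebraMap K F b ∈ Φ1.B := Φ1.const_mem_B b (mem_A_of_val_lt_one hb)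
  rcases s with q | q
  · obtain ⟨ht, hred, hU⟩ := p.hpar
    have htU1 : IsU Φ1 p.t := by
      have := hU 0 (zero_mem _)
      rwa [map_zero, sub_zero] at this
    have htU2 : IsU Φ2 p.t := ⟨htU1.1, mem_B2 hB2 htU1.2.1, mem_B2 hB2 htU1.2.2⟩
    have hfB : p.t * e - algebraMap K F b ∈ Φ1.B :=
      Φ1.B.sub_mem (Φ1.B.mul_mem ht heB) hbB
    have hf1 := red_mul_sub_small Φ1 ht heB hfB hb
    have hf2 := red_mul_sub_small Φ2 (mem_B2 hB2 ht) (mem_B2 hB2 heB) (mem_B2 hB2 hfB) hb2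
    have hfU := isU_of_red_ne_zero G hfB
      (by rw [hf1]; exact mul_ne_zero htU1.red_ne_zero h1)
      (by rw [hf2]; exact mul_ne_zero htU2.red_ne_zero h2)
    exact ord_red_nonneg_loc Φ1 q.2 ht heB hfU.1 hb hred h1 hreg hX hval
  · obtain ⟨ht, hred, hU⟩ := p.hpar
    have htU2 : IsU Φ2 p.t := by
      have := hU 0 (zero_mem _)
      rwa [map_zero, sub_zero] at this
    have ht1 : p.t ∈ Φ1.B := p.ht.1
    have htU1 : IsU Φ1 p.t := ⟨htU2.1, ht1, by rw [← hB2]; exact htU2.2.2⟩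
    have hfB : p.t * e - algebraMap K F b ∈ Φ1.B :=
      Φ1.B.sub_mem (Φ1.B.mul_mem ht1 heB) hbB
    have hf1 := red_mul_sub_small Φ1 ht1 heB hfB hb
    have hf2 := red_mul_sub_small Φ2 (mem_B2 hB2 ht1) (mem_B2 hB2 heB) (mem_B2 hB2 hfB) hb2
    have hfU := isU_of_red_ne_zero G hfB
      (by rw [hf1]; exact mul_ne_zero htU1.red_ne_zero h1)
      (by rw [hf2]; exact mul_ne_zero htU2.red_ne_zero h2)
    exact ord_red_nonneg_loc Φ2 q.2 (mem_B2 hB2 ht1) (mem_B2 hB2 heB) hfU.2 hb2 hred h2 hreg hX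
      hval

omit [HasPrincipalDivisors K F] in
theorem comp1_nonneg (s : SpPt Φ1 Φ2) : 0 ≤ comp1 s := by
  rcases s with q | q
  · exact Finsupp.single_nonneg.mpr zero_le_one
  · exact le_refl _

omit [HasPrincipalDivisors K F] in
theorem comp2_nonneg (s : SpPt Φ1 Φ2) : 0 ≤ comp2 s := by
  rcases s with q | q
  · exact le_refl _
  · exact Finsupp.single_nonneg.mpr zero_le_one

/-- **(F7), core**: both reductions of `e` nonzero. -/
theorem const_of_small_core (G : GlueHyp hc Φ1 Φ2 hB2 hexcl P Q g) {ι : Type} [Fintype ι]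
    {Qx : ι → SpPt Φ1 Φ2} (hQx : Function.Injective Qx) (pt : ∀ i, CPt Φg (Qx i)) {n : ℕ}
    (𝔤 : Chart Φg n) (hdisj : ∀ i j, Qx i ≠ 𝔤.Q j) {e : F} (heB : e ∈ Φ1.B)
    (heL : e ∈ riemannRochSpace ((∑ i, Finsupp.single (pt i).P (1 : ℤ)) + 𝔤.D0))
    (h1 : R1.red ⟨e, Φ1.B_le e heB⟩ ≠ 0)
    (h2 : R2.red ⟨e, Φ2.B_le e (mem_B2 hB2 heB)⟩ ≠ 0)
    {X : ι → Place K F} (hX : ∀ i, X i ∈ (Φg).disc (Qx i)) {b : ι → K}
    (hval : ∀ i, ValueAt (X i) ((pt i).t * e) (b i)) (hb : ∀ i, R1.A.valuation (b i) < 1) :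
    ∃ a : k, (Φg).red ⟨e, heB⟩ = algebraMap k (Ft1 × Ft2) a := by
  set z : Ft1 × Ft2 := (R1.red ⟨e, Φ1.B_le e heB⟩, R2.red ⟨e, Φ2.B_le e (mem_B2 hB2 heB)⟩)
    with hz
  have hredz : (Φg).red ⟨e, heB⟩ = z := rfl
  -- (L5) on the centres of all chart points
  let Qf : ι ⊕ Fin n → SpPt Φ1 Φ2 := Sum.elim Qx 𝔤.Q
  let Xc : ι ⊕ Fin n → Place K F := Sum.elim (fun i => (pt i).P) (fun j => (𝔤.pt j).P)
  have hQf : Function.Injective Qf := Function.Injective.sumElim hQx 𝔤.hQ hdisj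
  have hXc : ∀ j, Xc j ∈ discOf Φ1 Φ2 (Qf j) := by
    rintro (i | j)
    · exact (pt i).hP
    · exact (𝔤.pt j).hP
  have hL5 := G.L5 Qf hQf Xc hXc
  have hsumX : (∑ j, Finsupp.single (Xc j) (1 : ℤ))
      = (∑ i, Finsupp.single (pt i).P (1 : ℤ)) + 𝔤.D0 := by
    rw [Fintype.sum_sum_type]
    rfl
  have hzmem : z ∈ gluedSpace P Q
      ((∑ i, comp1 (Qx i)) + ∑ j, comp1 (𝔤.Q j)) ((∑ i, comp2 (Qx i)) + ∑ j, comp2 (𝔤.Q j)) := by
    have h := hL5 (show z ∈ redSpace Φg (∑ j, Finsupp.single (Xc j) (1 : ℤ)) from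
      ⟨⟨e, heB⟩, by rw [hsumX]; exact heL, hredz⟩)
    rw [Fintype.sum_sum_type, Fintype.sum_sum_type] at h
    exact h
  -- no pole at the points `Qx i`
  have hnp : ∀ i, NoPoleAt Φ1 Φ2 (Qx i) z := fun i =>
    noPoleAt_red G (pt i) heB h1 h2
      (fun P' hP' => Sec.mul_mem_toValuationSubring hQx pt 𝔤 hdisj heL i hP') (hX i) (hval i)
      (hb i)
  obtain ⟨hz1, hz2, hzglue⟩ := mem_gluedSpace.mp hzmem
  have hE1 : (0 : Divisor k Ft1) ≤ ∑ j, comp1 (𝔤.Q j) :=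
    Finset.sum_nonneg fun j _ => comp1_nonneg _
  have hE2 : (0 : Divisor k Ft2) ≤ ∑ j, comp2 (𝔤.Q j) :=
    Finset.sum_nonneg fun j _ => comp2_nonneg _
  have hz1' : z.1 ∈ riemannRochSpace (∑ j, comp1 (𝔤.Q j)) := by
    refine mem_riemannRochSpace_of_add hE1 hz1 fun v hv => ?_
    rw [Finsupp.finsetSum_apply] at hv
    obtain ⟨i, -, hi⟩ := Finset.exists_ne_zero_of_sum_ne_zero hv
    right
    have hnpi := hnp i
    rcases hQi : Qx i with q | q
    · rw [hQi] at hi hnpi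
      have hqv : q.1 = v := by
        by_contra hne
        exact hi (Finsupp.single_eq_of_ne' hne)
      rw [← hqv]
      exact hnpi
    · rw [hQi] at hi
      exact absurd rfl hi
  have hz2' : z.2 ∈ riemannRochSpace (∑ j, comp2 (𝔤.Q j)) := by
    refine mem_riemannRochSpace_of_add hE2 hz2 fun v hv => ?_
    rw [Finsupp.finsetSum_apply] at hv
    obtain ⟨i, -, hi⟩ := Finset.exists_ne_zero_of_sum_ne_zero hv
    right
    have hnpi := hnp i
    rcases hQi : Qx i with q | q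
    · rw [hQi] at hi
      exact absurd rfl hi
    · rw [hQi] at hi hnpi
      have hqv : q.1 = v := by
        by_contra hne
        exact hi (Finsupp.single_eq_of_ne' hne)
      rw [← hqv]
      exact hnpi
  -- the non-special kernel chart
  obtain ⟨T, hT, hfin⟩ := 𝔤.hns
  have hTeq : T = Finset.univ.image 𝔤.Q := by
    apply Finset.coe_injective
    rw [hT, Finset.coe_image, Finset.coe_univ, Set.image_univ]
  have hsp1 : spDiv1 T = ∑ j, comp1 (𝔤.Q j) := by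
    rw [spDiv1, hTeq, Finset.sum_image fun a _ b _ h => 𝔤.hQ h]
  have hsp2 : spDiv2 T = ∑ j, comp2 (𝔤.Q j) := by
    rw [spDiv2, hTeq, Finset.sum_image fun a _ b _ h => 𝔤.hQ h]
  have hzT : z ∈ gluedSpace P Q (spDiv1 T) (spDiv2 T) := by
    rw [hsp1, hsp2]
    exact mem_gluedSpace.mpr ⟨hz1', hz2', hzglue⟩
  have hone : (1 : Ft1 × Ft2) ∈ gluedSpace P Q (spDiv1 T) (spDiv2 T) :=
    one_mem_gluedSpace (by rw [hsp1]; exact hE1) (by rw [hsp2]; exact hE2)
  have hne : (⟨1, hone⟩ : gluedSpace P Q (spDiv1 T) (spDiv2 T)) ≠ 0 := fun h =>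
    one_ne_zero (congrArg Subtype.val h)
  obtain ⟨a, ha⟩ := (finrank_eq_one_iff_of_nonzero' _ hne).mp hfin ⟨z, hzT⟩
  refine ⟨a, ?_⟩
  rw [hredz]
  have := congrArg Subtype.val ha
  simp only [Submodule.coe_smul] at this
  rw [← this, Algebra.algebraMap_eq_smul_one]

/-- **(F7)** for the nodal disc frame: the field `const_of_small` of `DiscFacts (glueData …)`. -/
theorem const_of_small_glue [Infinite k] (G : GlueHyp hc Φ1 Φ2 hB2 hexcl P Q g)
    (L1 : LocalFacts Φ1) (L2 : LocalFacts Φ2) :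
    ∀ {ι : Type} [Fintype ι] {Qx : ι → SpPt Φ1 Φ2}, Function.Injective Qx →
    ∀ (pt : ∀ i, CPt Φg (Qx i)) {n : ℕ} (𝔤 : Chart Φg n), (∀ i j, Qx i ≠ 𝔤.Q j) →
    ∀ {e : F} (heB : e ∈ (Φg).B),
      e ∈ riemannRochSpace ((∑ i, Finsupp.single (pt i).P (1 : ℤ)) + 𝔤.D0) →
    ∀ {X : ι → Place K F}, (∀ i, X i ∈ (Φg).disc (Qx i)) → ∀ {b : ι → K},
      (∀ i, ValueAt (X i) ((pt i).t * e) (b i)) → (∀ i, (Φg).A.valuation (b i) < 1) →
      ∃ a : k, (Φg).red ⟨e, heB⟩ = algebraMap k (Ft1 × Ft2) a := by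
  intro ι _ Qx hQx pt n 𝔤 hdisj e heB heL X hX b hval hb
  have heB1 : e ∈ Φ1.B := heB
  -- a constant `c` making both reductions nonzero
  set x1 : Ft1 := R1.red ⟨e, Φ1.B_le e heB1⟩ with hx1
  set x2 : Ft2 := R2.red ⟨e, Φ2.B_le e (mem_B2 hB2 heB1)⟩ with hx2
  have hS1 : {c : k | x1 + algebraMap k Ft1 c = 0}.Subsingleton := by
    intro c hc' c' hc''
    apply (algebraMap k Ft1).injective
    have e1 : algebraMap k Ft1 c = -x1 := eq_neg_of_add_eq_zero_right hc'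
    have e2 : algebraMap k Ft1 c' = -x1 := eq_neg_of_add_eq_zero_right hc''
    rw [e1, e2]
  have hS2 : {c : k | x2 + algebraMap k Ft2 c = 0}.Subsingleton := by
    intro c hc' c' hc''
    apply (algebraMap k Ft2).injective
    have e1 : algebraMap k Ft2 c = -x2 := eq_neg_of_add_eq_zero_right hc'
    have e2 : algebraMap k Ft2 c' = -x2 := eq_neg_of_add_eq_zero_right hc''
    rw [e1, e2]
  obtain ⟨cbar, hcbar⟩ := (hS1.finite.union hS2.finite).infinite_compl.nonempty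
  have hc1 : x1 + algebraMap k Ft1 cbar ≠ 0 := fun h => hcbar (Or.inl h)
  have hc2 : x2 + algebraMap k Ft2 cbar ≠ 0 := fun h => hcbar (Or.inr h)
  obtain ⟨c, rfl⟩ := R1.res_surjective cbar
  have hcB : algebraMap K F (c : K) ∈ Φ1.B := Φ1.const_mem_B c c.2
  have he'B : e + algebraMap K F (c : K) ∈ Φ1.B := Φ1.B.add_mem heB1 hcB
  have hD0 : 0 ≤ (∑ i, Finsupp.single (pt i).P (1 : ℤ)) + 𝔤.D0 := Sec.poleDiv_nonneg pt 𝔤
  have he'L : e + algebraMap K F (c : K) ∈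
      riemannRochSpace ((∑ i, Finsupp.single (pt i).P (1 : ℤ)) + 𝔤.D0) := by
    refine add_mem heL ?_
    rw [Algebra.algebraMap_eq_smul_one]
    exact Submodule.smul_mem _ _ (one_mem_riemannRochSpace hD0)
  -- the pair reduction of `e + c`
  have hredc : (Φg).red ⟨algebraMap K F (c : K), hcB⟩ = algebraMap k (Ft1 × Ft2) (R1.res c) :=
    (Φg).red_algebraMap c
  have hred' : (Φg).red ⟨e + algebraMap K F (c : K), he'B⟩
      = (Φg).red ⟨e, heB⟩ + algebraMap k (Ft1 × Ft2) (R1.res c) := by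
    rw [← hredc, ← map_add]
    rfl
  have h1' : R1.red ⟨e + algebraMap K F (c : K), Φ1.B_le _ he'B⟩ ≠ 0 := by
    have := congrArg Prod.fst hred'
    rw [show ((Φg).red ⟨e + algebraMap K F (c : K), he'B⟩).1
      = R1.red ⟨e + algebraMap K F (c : K), Φ1.B_le _ he'B⟩ from rfl] at this
    rw [this]
    exact hc1
  have h2' : R2.red ⟨e + algebraMap K F (c : K), Φ2.B_le _ (mem_B2 hB2 he'B)⟩ ≠ 0 := by
    have := congrArg Prod.snd hred'
    rw [show ((Φg).red ⟨e + algebraMap K F (c : K), he'B⟩).2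
      = R2.red ⟨e + algebraMap K F (c : K), Φ2.B_le _ (mem_B2 hB2 he'B)⟩ from rfl] at this
    rw [this]
    exact hc2
  -- the values of `t_i (e + c)`
  have hτ : ∀ i, ∃ τ : K, ValueAt (X i) (pt i).t τ ∧ R1.A.valuation τ < 1 := fun i =>
    exists_param_value L1 L2 (pt i) (hX i)
  choose τ hτv hτs using hτ
  have hval' : ∀ i, ValueAt (X i) ((pt i).t * (e + algebraMap K F (c : K)))
      (b i + (c : K) * τ i) := by
    intro i
    have : (pt i).t * (e + algebraMap K F (c : K))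
        = (pt i).t * e + algebraMap K F (c : K) * (pt i).t := by ring
    rw [this]
    exact ValueAt.add _ (hval i) (ValueAt.smul _ (c : K) (hτv i))
  have hb' : ∀ i, R1.A.valuation (b i + (c : K) * τ i) < 1 := by
    intro i
    refine Valuation.map_add_lt _ (hb i) ?_
    rw [map_mul]
    have hcle : R1.A.valuation (c : K) ≤ 1 := (R1.A.valuation_le_one_iff _).mpr c.2
    calc R1.A.valuation (c : K) * R1.A.valuation (τ i)
        ≤ 1 * R1.A.valuation (τ i) := mul_le_mul_left hcle _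
      _ < 1 := by rw [one_mul]; exact hτs i
  obtain ⟨a', ha'⟩ := const_of_small_core G hQx pt 𝔤 hdisj he'B he'L h1' h2' hX hval' hb'
  refine ⟨a' - R1.res c, ?_⟩
  rw [map_sub, ← ha', hred']
  ring

end Two

end Fermat.Agent.GS.Frame.Glue
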