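/-
GATE-S (S33) / FRAME², layer L2 = GLUE (helper34; helper92 5142 §4), file 2: the facts of the nodal
disc frame `glueData` except (F7):

* `cptL`, `cptR` : a chart point of the glued frame over a point of the first / second component is
  a chart point of the local frame of that component;
* (F1)–(F5) `exists_value_glue`, `param_lt_one_glue`, `taylor_glue`, `disc_inj_glue`,
  `ord_on_chart_disc_glue` : by cases on the component, from `LocalFacts`;
* (F6) `ord_eq_zero_off_glue` : the degree count (`deg div h = 0`, and `div h` has degree zero on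
  every good disc by the fibre formula for the unit `h ≡ 1`);
* (F10) `finrank_eq_one_glue` : rigidity, from (L5), rank preservation and non-speciality;
* `discFacts_glue_of_F7` : the assembly, with (F7) as a binder.
-/
import Mathlib
import Fermat.Agent.GS.Frame.Glue.Data

set_option autoImplicit false

noncomputable section

open AlgebraicCurve

namespace Fermat.Agent.GS.Frame.Glue

open Fermat.Agent.RRh45 Fermat.Agent.GJ.J1 Fermat.Agent.GH Fermat.Agent.GK.MultiVal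
open Fermat.Agent.GS.Frame Fermat.Agent.GS.Frame.Local Fermat.Agent.GS.Nod
open Fermat.Agent.GJ.S37MinDiv

open scoped Classical

variable {K F k Ft1 Ft2 : Type*} [Field K] [Field F] [Algebra K F] [Field k]
  [Field Ft1] [Algebra k Ft1] [Field Ft2] [Algebra k Ft2]
variable {R1 : RedData K F k Ft1} {R2 : RedData K F k Ft2}
variable {hc : RedCompat R1 R2} {Φ1 : FibreHyp R1} {Φ2 : FibreHyp R2} {hB2 : Φ2.B = Φ1.B}
  {hexcl : ∀ (X : Place K F) (q : Place k Ft1) (q' : Place k Ft2),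
    Φ1.rOf X = some q → Φ2.rOf X ≠ some q'}
  {ι : Type*} {P : ι → Place k Ft1} {Q : ι → Place k Ft2} {g : ℤ}

/-! ### chart points -/

/-- a chart point of the glued frame over a point of the first component. -/
def cptL {q : {q : Place k Ft1 // q ∈ Φ1.good}}
    (pt : CPt (glueData hc Φ1 Φ2 hB2 hexcl P Q g) (Sum.inl q)) : ChartPt Φ1 q.1 where
  hQ := q.2
  P := pt.P
  hP := pt.hP
  t := pt.t
  ht := pt.ht
  ht0 := pt.ht0
  hred := pt.hpar.choose_spec.1
  hU := pt.hpar.choose_spec.2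

/-- a chart point of the glued frame over a point of the second component. -/
def cptR {q : {q : Place k Ft2 // q ∈ Φ2.good}}
    (pt : CPt (glueData hc Φ1 Φ2 hB2 hexcl P Q g) (Sum.inr q)) : ChartPt Φ2 q.1 where
  hQ := q.2
  P := pt.P
  hP := pt.hP
  t := pt.t
  ht := ⟨mem_B2 hB2 pt.ht.1, pt.ht.2⟩
  ht0 := pt.ht0
  hred := pt.hpar.choose_spec.1
  hU := pt.hpar.choose_spec.2

@[simp] theorem cptL_t {q : {q : Place k Ft1 // q ∈ Φ1.good}}
    (pt : CPt (glueData hc Φ1 Φ2 hB2 hexcl P Q g) (Sum.inl q)) : (cptL pt).t = pt.t := rfl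

@[simp] theorem cptL_P {q : {q : Place k Ft1 // q ∈ Φ1.good}}
    (pt : CPt (glueData hc Φ1 Φ2 hB2 hexcl P Q g) (Sum.inl q)) : (cptL pt).P = pt.P := rfl

@[simp] theorem cptR_t {q : {q : Place k Ft2 // q ∈ Φ2.good}}
    (pt : CPt (glueData hc Φ1 Φ2 hB2 hexcl P Q g) (Sum.inr q)) : (cptR pt).t = pt.t := rfl

@[simp] theorem cptR_P {q : {q : Place k Ft2 // q ∈ Φ2.good}}
    (pt : CPt (glueData hc Φ1 Φ2 hB2 hexcl P Q g) (Sum.inr q)) : (cptR pt).P = pt.P := rfl

/-- disc-regular functions of the glued frame over a point of the second component. -/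
theorem odisc_inr {q : {q : Place k Ft2 // q ∈ Φ2.good}} {e : F}
    (he : e ∈ Odisc (glueData hc Φ1 Φ2 hB2 hexcl P Q g) (Sum.inr q)) : e ∈ Local.Odisc Φ2 q.1 :=
  ⟨mem_B2 hB2 he.1, he.2⟩

theorem val_lt_one_iff₂ (hc : RedCompat R1 R2) (a : K) :
    R2.A.valuation a < 1 ↔ R1.A.valuation a < 1 := by
  rw [hc.A_eq]

/-! ### the reduction `1` -/

/-- `red h = 1` for the pair reduction puts `h - 1` in the radical. -/
theorem sub_one_mem_rad (G : GlueHyp hc Φ1 Φ2 hB2 hexcl P Q g) {h : F} (hB : h ∈ Φ1.B)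
    (hred : redPair Φ1 Φ2 hB2 ⟨h, hB⟩ = 1) : h - 1 ∈ Φ1.rad := by
  have hB' : h - 1 ∈ Φ1.B := Φ1.B.sub_mem hB Φ1.B.one_mem
  rw [redPair_apply] at hred
  have h1 : R1.red ⟨h, Φ1.B_le h hB⟩ = 1 := congrArg Prod.fst hred
  have h2 : R2.red ⟨h, Φ2.B_le h (mem_B2 hB2 hB)⟩ = 1 := congrArg Prod.snd hred
  refine G.rad_of_red (h - 1) hB' ?_ ?_
  · have e : (⟨h - 1, Φ1.B_le _ hB'⟩ : R1.Rw) = ⟨h, Φ1.B_le h hB⟩ - 1 := rfl
    rw [e, map_sub, h1, map_one, sub_self]
  · have e : (⟨h - 1, Φ2.B_le _ (mem_B2 hB2 hB')⟩ : R2.Rw) =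
        ⟨h, Φ2.B_le h (mem_B2 hB2 hB)⟩ - 1 := rfl
    rw [e, map_sub, h2, map_one, sub_self]

/-! ### (F1)–(F5): by cases on the component -/

theorem exists_value_glue (L1 : LocalFacts Φ1) (L2 : LocalFacts Φ2) {s : SpPt Φ1 Φ2} {e : F}
    (he : e ∈ Odisc (glueData hc Φ1 Φ2 hB2 hexcl P Q g) s) (X : Place K F)
    (hX : X ∈ (glueData hc Φ1 Φ2 hB2 hexcl P Q g).disc s) :
    ∃ a ∈ (glueData hc Φ1 Φ2 hB2 hexcl P Q g).A, ValueAt X e a := by
  rcases s with q | q
  · exact L1.exists_value q.2 he X hX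
  · obtain ⟨a, ha, hav⟩ := L2.exists_value q.2 (odisc_inr he) X hX
    refine ⟨a, ?_, hav⟩
    show a ∈ R1.A
    rw [hc.A_eq]
    exact ha

theorem param_lt_one_glue (L1 : LocalFacts Φ1) (L2 : LocalFacts Φ2) {s : SpPt Φ1 Φ2}
    (pt : CPt (glueData hc Φ1 Φ2 hB2 hexcl P Q g) s) (X : Place K F)
    (hX : X ∈ (glueData hc Φ1 Φ2 hB2 hexcl P Q g).disc s) (a : K) (ha : ValueAt X pt.t a) :
    (glueData hc Φ1 Φ2 hB2 hexcl P Q g).A.valuation a < 1 := by
  rcases s with q | q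
  · exact L1.param_lt_one (cptL pt) X hX a ha
  · exact (val_lt_one_iff₂ hc a).mp (L2.param_lt_one (cptR pt) X hX a ha)

theorem taylor_glue (L1 : LocalFacts Φ1) (L2 : LocalFacts Φ2) {s : SpPt Φ1 Φ2}
    (pt : CPt (glueData hc Φ1 Φ2 hB2 hexcl P Q g) s) {e : F}
    (he : e ∈ Odisc (glueData hc Φ1 Φ2 hB2 hexcl P Q g) s) (m : ℕ) :
    ∃ γ : ℕ → K, (∀ i, γ i ∈ (glueData hc Φ1 Φ2 hB2 hexcl P Q g).A) ∧
      ∀ X ∈ (glueData hc Φ1 Φ2 hB2 hexcl P Q g).disc s, ∀ a b : K, ValueAt X pt.t a →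
        ValueAt X e b →
        (glueData hc Φ1 Φ2 hB2 hexcl P Q g).A.valuation (b - ∑ i ∈ Finset.range m, γ i * a ^ i) ≤
          (glueData hc Φ1 Φ2 hB2 hexcl P Q g).A.valuation a ^ m := by
  rcases s with q | q
  · exact L1.taylor (cptL pt) he m
  · have key := L2.taylor (cptR pt) (odisc_inr he) m
    have hA : R2.A = R1.A := hc.A_eq.symm
    rw [hA] at key
    exact key

theorem disc_inj_glue (L1 : LocalFacts Φ1) (L2 : LocalFacts Φ2) {s : SpPt Φ1 Φ2}
    (pt : CPt (glueData hc Φ1 Φ2 hB2 hexcl P Q g) s) (a : K) (X X' : Place K F)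
    (hX : X ∈ (glueData hc Φ1 Φ2 hB2 hexcl P Q g).disc s)
    (hX' : X' ∈ (glueData hc Φ1 Φ2 hB2 hexcl P Q g).disc s) (h : ValueAt X pt.t a)
    (h' : ValueAt X' pt.t a) : X = X' := by
  rcases s with q | q
  · exact L1.disc_inj (cptL pt) a X X' hX hX' h h'
  · exact L2.disc_inj (cptR pt) a X X' hX hX' h h'

theorem ord_on_chart_disc_glue (G : GlueHyp hc Φ1 Φ2 hB2 hexcl P Q g) (L1 : LocalFacts Φ1)
    (L2 : LocalFacts Φ2) {s : SpPt Φ1 Φ2}
    (pt : CPt (glueData hc Φ1 Φ2 hB2 hexcl P Q g) s) {h : F}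
    (hB : h ∈ (glueData hc Φ1 Φ2 hB2 hexcl P Q g).B)
    (hred : (glueData hc Φ1 Φ2 hB2 hexcl P Q g).red ⟨h, hB⟩ = 1)
    (hpole : ∀ X ∈ (glueData hc Φ1 Φ2 hB2 hexcl P Q g).disc s,
      -(if X = pt.P then 1 else 0) ≤ X.ord h) :
    ∃ Ps ∈ (glueData hc Φ1 Φ2 hB2 hexcl P Q g).disc s, ValueAt Ps (pt.t * h) 0 ∧
      (∀ X' ∈ (glueData hc Φ1 Φ2 hB2 hexcl P Q g).disc s, ValueAt X' (pt.t * h) 0 → X' = Ps) ∧
      ∀ X ∈ (glueData hc Φ1 Φ2 hB2 hexcl P Q g).disc s,
        X.ord h = (if X = Ps then 1 else 0) - (if X = pt.P then 1 else 0) := by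
  have hrad : h - 1 ∈ Φ1.rad := sub_one_mem_rad G hB hred
  rcases s with q | q
  · exact L1.ord_on_chart_disc (cptL pt) hrad hpole
  · exact L2.ord_on_chart_disc (cptR pt) (by rw [G.hrad2]; exact hrad) hpole

/-! ### (F6): the degree count -/

theorem ord_eq_zero_off_glue [HasPrincipalDivisors K F] (G : GlueHyp hc Φ1 Φ2 hB2 hexcl P Q g)
    {h : F} (hB : h ∈ (glueData hc Φ1 Φ2 hB2 hexcl P Q g).B)
    (hred : (glueData hc Φ1 Φ2 hB2 hexcl P Q g).red ⟨h, hB⟩ = 1) (S : Finset (SpPt Φ1 Φ2))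
    (hpole : ∀ X : Place K F,
      (∀ s ∈ S, X ∉ (glueData hc Φ1 Φ2 hB2 hexcl P Q g).disc s) → 0 ≤ X.ord h) :
    ∀ X : Place K F,
      (∀ s ∈ S, X ∉ (glueData hc Φ1 Φ2 hB2 hexcl P Q g).disc s) → X.ord h = 0 := by
  have hB1 : h ∈ Φ1.B := hB
  have hrad : h - 1 ∈ Φ1.rad := sub_one_mem_rad G hB1 hred
  have hU1 : IsU Φ1 h := by
    have := isU_one_add Φ1 hrad
    rwa [add_sub_cancel] at this
  have hU2 : IsU Φ2 h := by
    have hrad2 : h - 1 ∈ Φ2.rad := by rw [G.hrad2]; exact hrad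
    have := isU_one_add Φ2 hrad2
    rwa [add_sub_cancel] at this
  have hred' : redPair Φ1 Φ2 hB2 ⟨h, hB1⟩ = 1 := hred
  rw [redPair_apply] at hred'
  have hr1 : R1.red ⟨h, Φ1.B_le h hB1⟩ = 1 := congrArg Prod.fst hred'
  have hr2 : R2.red ⟨h, Φ2.B_le h (mem_B2 hB2 hB1)⟩ = 1 := congrArg Prod.snd hred'
  have h0 : h ≠ 0 := hU1.1
  obtain ⟨Dh, hDh, hdeg⟩ := HasPrincipalDivisors.exists_divisor (K := K) h h0
  -- the total sum of the orders is zero
  have htot : ∑ X ∈ Dh.support, X.ord h = 0 := by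
    have hsum : Divisor.degree Dh = ∑ X ∈ Dh.support, Dh X := by
      have h1 : Divisor.degree Dh = Dh.sum fun v n => n * (v.deg : ℤ) := by
        simp [Divisor.degree, Finsupp.liftAddHom_apply]
      rw [h1, Finsupp.sum]
      exact Finset.sum_congr rfl fun X _ => by rw [Φ1.degF X]; simp
    rw [← hdeg, hsum]
    exact Finset.sum_congr rfl fun X _ => (hDh X).symm
  -- on every good disc the sum of the orders is zero
  have hdisc : ∀ s : SpPt Φ1 Φ2,
      ∑ X ∈ Dh.support.filter (fun X => X ∈ discOf Φ1 Φ2 s), X.ord h = 0 := by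
    rintro (q | q)
    · have := ord_red_eq_sum Φ1 hU1 hDh q.2
      rw [hr1, Place.ord_one] at this
      refine Eq.trans (Finset.sum_congr ?_ fun _ _ => rfl) this.symm
      ext X
      simp only [Finset.mem_filter]
      exact Iff.rfl
    · have := ord_red_eq_sum Φ2 hU2 hDh q.2
      rw [hr2, Place.ord_one] at this
      refine Eq.trans (Finset.sum_congr ?_ fun _ _ => rfl) this.symm
      ext X
      simp only [Finset.mem_filter]
      exact Iff.rfl
  -- the sum over the places in the discs of `S`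
  have hin : ∑ X ∈ Dh.support.filter (fun X => ∃ s ∈ S, X ∈ discOf Φ1 Φ2 s), X.ord h = 0 := by
    have hbU : Dh.support.filter (fun X => ∃ s ∈ S, X ∈ discOf Φ1 Φ2 s) =
        S.biUnion fun s => Dh.support.filter (fun X => X ∈ discOf Φ1 Φ2 s) := by
      ext X
      simp only [Finset.mem_filter, Finset.mem_biUnion]
      constructor
      · rintro ⟨hX, s, hs, hXs⟩
        exact ⟨s, hs, hX, hXs⟩
      · rintro ⟨s, hs, hX, hXs⟩
        exact ⟨hX, s, hs, hXs⟩
    rw [hbU, Finset.sum_biUnion]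
    · exact Finset.sum_eq_zero fun s _ => hdisc s
    · intro s _ s' _ hss'
      rw [Function.onFun, Finset.disjoint_left]
      intro X hX hX'
      exact (glueData hc Φ1 Φ2 hB2 hexcl P Q g).disc_disjoint hss' X
        (Finset.mem_filter.mp hX).2 (Finset.mem_filter.mp hX').2
  -- hence the sum over the places off the discs is zero
  have hoff : ∑ X ∈ Dh.support.filter (fun X => ¬ ∃ s ∈ S, X ∈ discOf Φ1 Φ2 s), X.ord h = 0 := by
    have := Finset.sum_filter_add_sum_filter_not Dh.support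
      (fun X => ∃ s ∈ S, X ∈ discOf Φ1 Φ2 s) (fun X => X.ord h)
    rw [hin, htot, zero_add] at this
    exact this
  intro X hX
  have hXoff : ¬ ∃ s ∈ S, X ∈ discOf Φ1 Φ2 s := fun ⟨s, hs, hXs⟩ => hX s hs hXs
  by_cases hXs : X ∈ Dh.support
  · have hnn : ∀ Y ∈ Dh.support.filter (fun X => ¬ ∃ s ∈ S, X ∈ discOf Φ1 Φ2 s),
        0 ≤ Y.ord h := fun Y hY => hpole Y fun s hs hYs =>
      (Finset.mem_filter.mp hY).2 ⟨s, hs, hYs⟩
    exact (Finset.sum_eq_zero_iff_of_nonneg hnn).mp hoff X (Finset.mem_filter.mpr ⟨hXs, hXoff⟩)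
  · rw [← hDh X]
    exact Finsupp.notMem_support_iff.mp hXs

/-! ### (F10): rigidity -/

theorem finrank_eq_one_glue (G : GlueHyp hc Φ1 Φ2 hB2 hexcl P Q g) {n : ℕ}
    (Qf : Fin n → SpPt Φ1 Φ2) (hinj : Function.Injective Qf)
    (hns : (glueData hc Φ1 Φ2 hB2 hexcl P Q g).NS (Set.range Qf)) (X : Fin n → Place K F)
    (hX : ∀ i, X i ∈ (glueData hc Φ1 Φ2 hB2 hexcl P Q g).disc (Qf i)) :
    Module.finrank K (riemannRochSpace (∑ i, Finsupp.single (X i) (1 : ℤ))) = 1 := by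
  obtain ⟨T, hT, hfin⟩ := hns
  have hTimg : T = Finset.univ.image Qf := by
    apply Finset.coe_injective
    rw [hT, Finset.coe_image, Finset.coe_univ, Set.image_univ]
  have e1 : ∑ i, comp1 (Qf i) = spDiv1 T := by
    rw [spDiv1, hTimg, Finset.sum_image fun a _ b _ hab => hinj hab]
  have e2 : ∑ i, comp2 (Qf i) = spDiv2 T := by
    rw [spDiv2, hTimg, Finset.sum_image fun a _ b _ hab => hinj hab]
  have hD0 : (0 : Divisor K F) ≤ ∑ i, Finsupp.single (X i) (1 : ℤ) :=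
    Finset.sum_nonneg fun i _ => Finsupp.single_nonneg.mpr zero_le_one
  have hle := G.L5 Qf hinj X hX
  rw [e1, e2] at hle
  obtain ⟨hfinite, horth⟩ := G.orth _ hD0
  rw [← horth]
  have : Module.Finite k (gluedSpace P Q (spDiv1 T) (spDiv2 T)) :=
    Module.finite_of_finrank_pos (by rw [hfin]; exact zero_lt_one)
  have h1 : Module.finrank k
      (redSpace (glueData hc Φ1 Φ2 hB2 hexcl P Q g) (∑ i, Finsupp.single (X i) (1 : ℤ))) ≤ 1 := by
    rw [← hfin]
    exact Submodule.finrank_mono hle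
  have h2 : 0 < Module.finrank k
      (redSpace (glueData hc Φ1 Φ2 hB2 hexcl P Q g) (∑ i, Finsupp.single (X i) (1 : ℤ))) := by
    have := hfinite
    have hone : (1 : Ft1 × Ft2) ∈
        redSpace (glueData hc Φ1 Φ2 hB2 hexcl P Q g) (∑ i, Finsupp.single (X i) (1 : ℤ)) :=
      ⟨1, by simpa using one_mem_riemannRochSpace hD0, map_one _⟩
    have : Nontrivial (redSpace (glueData hc Φ1 Φ2 hB2 hexcl P Q g)
        (∑ i, Finsupp.single (X i) (1 : ℤ))) :=
      ⟨⟨⟨1, hone⟩, 0, fun h => one_ne_zero (congrArg Subtype.val h)⟩⟩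
    exact Module.finrank_pos
  omega

/-! ### the assembly -/

/-- **The facts of the nodal disc frame**, with (F7) as a binder. -/
theorem discFacts_glue_of_F7 [HasPrincipalDivisors K F]
    (G : GlueHyp hc Φ1 Φ2 hB2 hexcl P Q g) (L1 : LocalFacts Φ1) (L2 : LocalFacts Φ2)
    (hF7 : ∀ {ι' : Type} [Fintype ι'] {Qx : ι' → SpPt Φ1 Φ2}, Function.Injective Qx →
      ∀ (pt : ∀ i, CPt (glueData hc Φ1 Φ2 hB2 hexcl P Q g) (Qx i)) {n : ℕ}
        (𝔤 : Chart (glueData hc Φ1 Φ2 hB2 hexcl P Q g) n), (∀ i j, Qx i ≠ 𝔤.Q j) →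
      ∀ {e : F} (heB : e ∈ (glueData hc Φ1 Φ2 hB2 hexcl P Q g).B),
        e ∈ riemannRochSpace ((∑ i, Finsupp.single (pt i).P (1 : ℤ)) + 𝔤.D0) →
      ∀ {X : ι' → Place K F}, (∀ i, X i ∈ (glueData hc Φ1 Φ2 hB2 hexcl P Q g).disc (Qx i)) →
      ∀ {b : ι' → K}, (∀ i, ValueAt (X i) ((pt i).t * e) (b i)) →
        (∀ i, (glueData hc Φ1 Φ2 hB2 hexcl P Q g).A.valuation (b i) < 1) →
        ∃ a : k, (glueData hc Φ1 Φ2 hB2 hexcl P Q g).red ⟨e, heB⟩ =
          algebraMap k (Ft1 × Ft2) a) :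
    DiscFacts (glueData hc Φ1 Φ2 hB2 hexcl P Q g) where
  degF := Φ1.degF
  sp_one_ne_zero := one_ne_zero
  exists_value := fun he X hX => exists_value_glue L1 L2 he X hX
  param_lt_one := fun pt X hX a ha => param_lt_one_glue L1 L2 pt X hX a ha
  taylor := fun pt _ he m => taylor_glue L1 L2 pt he m
  disc_inj := fun pt a X X' hX hX' h h' => disc_inj_glue L1 L2 pt a X X' hX hX' h h'
  ord_on_chart_disc := fun pt _ hB hred hpole => ord_on_chart_disc_glue G L1 L2 pt hB hred hpole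
  ord_eq_zero_off := fun hB hred S hpole => ord_eq_zero_off_glue G hB hred S hpole
  const_of_small := hF7
  finrank_redSpace := G.orth
  riemann := G.riemann
  finrank_eq_one := fun Qf hinj hns X hX => finrank_eq_one_glue G Qf hinj hns X hX

end Fermat.Agent.GS.Frame.Glue
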