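/-
GATE-S (S33) / FRAME², layer L2 = GLUE, node [ChartSupply²] (helper87): **the chart supply of the
nodal disc frame** `glueData hc Φ1 Φ2 hB2 hexcl P Q g` of `GS/Frame/Glue/Data.lean`.

On two components glued along `#ι ≥ 1` nodes (all places of degree one, infinitely many places on
both components), for every `n ≤ gluedGenus` there are, off any finite set of special points,
`n` pairwise distinct smooth special points (split `n = n₁ + n₂` between the two components by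
the greedy algorithm of `GS/Nod/Generic.lean`, the split is an OUTPUT) forming a non-special set
in the sense `NSOf` of `Glue/Data.lean`.  With one chart point over every special point this is
the contract `ChartSupply (glueData …) n` of `GS/Frame/Vocab.lean`.

* `spDiv1_disjSum`, `spDiv2_disjSum`, `spDiv1_ofFinsets`, `spDiv2_ofFinsets` : bookkeeping;
* `exists_nsFamily` : the non-special families (`hgood_i`: all places off a finite set are good);
* `cptOfLocal₁`, `cptOfLocal₂` : a local chart point is a chart point of the glued frame;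
* `chartSupply_glue` : `ChartSupply (glueData …) n`, binder `hpt : ∀ s, Nonempty (CPt _ s)`;
* `chartSupply_glue_of_local` : the same from local chart points on the two components.
-/
import Mathlib
import Fermat.Agent.GS.Frame.Glue.Data
import Fermat.Agent.GS.Frame.Gen.Supply
import Fermat.Agent.GS.Nod.GluedRiemann

set_option autoImplicit false

noncomputable section

open AlgebraicCurve

namespace Fermat.Agent.GS.Frame.Glue

open Fermat.Agent.RRh45 Fermat.Agent.RR Fermat.Agent.GJ.J1 Fermat.Agent.GH Fermat.Agent.GH.G6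
open Fermat.Agent.GK.MultiVal
open Fermat.Agent.GS.Frame Fermat.Agent.GS.Frame.Local Fermat.Agent.GS.Nod

open scoped Classical

variable {K F k Ft1 Ft2 : Type*} [Field K] [Field F] [Algebra K F] [Field k]
  [Field Ft1] [Algebra k Ft1] [Field Ft2] [Algebra k Ft2]
variable {R1 : RedData K F k Ft1} {R2 : RedData K F k Ft2}
variable {Φ1 : FibreHyp R1} {Φ2 : FibreHyp R2}

/-! ### bookkeeping -/

theorem spDiv1_disjSum (A : Finset {q : Place k Ft1 // q ∈ Φ1.good})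
    (B : Finset {q : Place k Ft2 // q ∈ Φ2.good}) :
    spDiv1 (Φ1 := Φ1) (Φ2 := Φ2) (A.disjSum B) = ∑ q ∈ A, Finsupp.single q.1 (1 : ℤ) := by
  rw [spDiv1, Finset.sum_disjSum]
  have h2 : ∑ q ∈ B, comp1 (Φ1 := Φ1) (Φ2 := Φ2) (Sum.inr q) = 0 :=
    Finset.sum_eq_zero fun q _ => rfl
  rw [h2, add_zero]
  rfl

theorem spDiv2_disjSum (A : Finset {q : Place k Ft1 // q ∈ Φ1.good})
    (B : Finset {q : Place k Ft2 // q ∈ Φ2.good}) :
    spDiv2 (Φ1 := Φ1) (Φ2 := Φ2) (A.disjSum B) = ∑ q ∈ B, Finsupp.single q.1 (1 : ℤ) := by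
  rw [spDiv2, Finset.sum_disjSum]
  have h1 : ∑ q ∈ A, comp2 (Φ1 := Φ1) (Φ2 := Φ2) (Sum.inl q) = 0 :=
    Finset.sum_eq_zero fun q _ => rfl
  rw [h1, zero_add]
  rfl

/-- the sum over the subtype of a finset all of whose members satisfy the predicate. -/
theorem sum_subtype_single {α : Type*} (p : α → Prop) (T : Finset α) (hT : ∀ q ∈ T, p q) :
    ∑ q ∈ T.subtype p, Finsupp.single (q : α) (1 : ℤ) = ∑ q ∈ T, Finsupp.single q (1 : ℤ) := by
  rw [Finset.sum_subtype_eq_sum_filter (f := fun q : α => Finsupp.single q (1 : ℤ)),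
    Finset.filter_true_of_mem hT]

/-- the finite set of special points with first components `T₁` and second components `T₂`. -/
def ofFinsets (Φ1 : FibreHyp R1) (Φ2 : FibreHyp R2) (T₁ : Finset (Place k Ft1))
    (T₂ : Finset (Place k Ft2)) : Finset (SpPt Φ1 Φ2) :=
  (T₁.subtype (· ∈ Φ1.good)).disjSum (T₂.subtype (· ∈ Φ2.good))

theorem spDiv1_ofFinsets {T₁ : Finset (Place k Ft1)} (T₂ : Finset (Place k Ft2))
    (hT₁ : ∀ q ∈ T₁, q ∈ Φ1.good) : spDiv1 (ofFinsets Φ1 Φ2 T₁ T₂) = sumDiv T₁ := by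
  rw [ofFinsets, spDiv1_disjSum, sum_subtype_single _ T₁ hT₁]
  rfl

theorem spDiv2_ofFinsets (T₁ : Finset (Place k Ft1)) {T₂ : Finset (Place k Ft2)}
    (hT₂ : ∀ q ∈ T₂, q ∈ Φ2.good) : spDiv2 (ofFinsets Φ1 Φ2 T₁ T₂) = sumDiv T₂ := by
  rw [ofFinsets, spDiv2_disjSum, sum_subtype_single _ T₂ hT₂]
  rfl

theorem card_ofFinsets {T₁ : Finset (Place k Ft1)} {T₂ : Finset (Place k Ft2)}
    (hT₁ : ∀ q ∈ T₁, q ∈ Φ1.good) (hT₂ : ∀ q ∈ T₂, q ∈ Φ2.good) :
    (ofFinsets Φ1 Φ2 T₁ T₂).card = T₁.card + T₂.card := by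
  rw [ofFinsets, Finset.card_disjSum, Finset.card_subtype, Finset.card_subtype,
    Finset.filter_true_of_mem hT₁, Finset.filter_true_of_mem hT₂]

theorem inl_mem_ofFinsets {T₁ : Finset (Place k Ft1)} {T₂ : Finset (Place k Ft2)}
    {q : {q : Place k Ft1 // q ∈ Φ1.good}} :
    (Sum.inl q : SpPt Φ1 Φ2) ∈ ofFinsets Φ1 Φ2 T₁ T₂ ↔ q.1 ∈ T₁ := by
  rw [ofFinsets, Finset.inl_mem_disjSum, Finset.mem_subtype]

theorem inr_mem_ofFinsets {T₁ : Finset (Place k Ft1)} {T₂ : Finset (Place k Ft2)}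
    {q : {q : Place k Ft2 // q ∈ Φ2.good}} :
    (Sum.inr q : SpPt Φ1 Φ2) ∈ ofFinsets Φ1 Φ2 T₁ T₂ ↔ q.1 ∈ T₂ := by
  rw [ofFinsets, Finset.inr_mem_disjSum, Finset.mem_subtype]

/-! ### the non-special families -/

section Family

variable {ι : Type*} [Fintype ι] {P : ι → Place k Ft1} {Q : ι → Place k Ft2}
variable [FiniteResidues k Ft1] [HasPrincipalDivisors k Ft1] [Nonempty (Place k Ft1)]
variable [FiniteResidues k Ft2] [HasPrincipalDivisors k Ft2] [Nonempty (Place k Ft2)]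

/-- **non-special sets of smooth special points, off any finite set**: the finset form. -/
theorem exists_nsFinset [Nonempty ι] [Infinite (Place k Ft1)] [Infinite (Place k Ft2)]
    (hP : Function.Injective P) (hQ : Function.Injective Q)
    (hdeg₁ : ∀ v : Place k Ft1, v.deg = 1) (hdeg₂ : ∀ w : Place k Ft2, w.deg = 1)
    (B₁ : Finset (Place k Ft1)) (hgood₁ : ∀ q : Place k Ft1, q ∉ B₁ → q ∈ Φ1.good)
    (B₂ : Finset (Place k Ft2)) (hgood₂ : ∀ q : Place k Ft2, q ∉ B₂ → q ∈ Φ2.good)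
    (n : ℕ) (hn : (n : ℤ) ≤ gluedGenus k Ft1 Ft2 ι) (S : Finset (SpPt Φ1 Φ2)) :
    ∃ T : Finset (SpPt Φ1 Φ2), T.card = n ∧ Disjoint T S ∧
      Module.finrank k (gluedSpace P Q (spDiv1 T) (spDiv2 T)) = 1 := by
  obtain ⟨T₁, T₂, hcard, hT₁, hT₂, -, -, hl⟩ :=
    exists_nonspecial_glued_of_nodes (P := P) (Q := Q) hP hQ hdeg₁ hdeg₂
      (B₁ ∪ S.toLeft.image Subtype.val) (B₂ ∪ S.toRight.image Subtype.val) n hn
  rw [Finset.disjoint_union_right] at hT₁ hT₂
  have hg₁ : ∀ q ∈ T₁, q ∈ Φ1.good := fun q hq =>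
    hgood₁ q fun hB => Finset.disjoint_left.mp hT₁.1 hq hB
  have hg₂ : ∀ q ∈ T₂, q ∈ Φ2.good := fun q hq =>
    hgood₂ q fun hB => Finset.disjoint_left.mp hT₂.1 hq hB
  refine ⟨ofFinsets Φ1 Φ2 T₁ T₂, ?_, ?_, ?_⟩
  · rw [card_ofFinsets hg₁ hg₂, hcard]
  · rw [Finset.disjoint_left]
    rintro (q | q) hq hS
    · rw [inl_mem_ofFinsets] at hq
      exact Finset.disjoint_left.mp hT₁.2 hq
        (Finset.mem_image.mpr ⟨q, Finset.mem_toLeft.mpr hS, rfl⟩)
    · rw [inr_mem_ofFinsets] at hq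
      exact Finset.disjoint_left.mp hT₂.2 hq
        (Finset.mem_image.mpr ⟨q, Finset.mem_toRight.mpr hS, rfl⟩)
  · rw [spDiv1_ofFinsets T₂ hg₁, spDiv2_ofFinsets T₁ hg₂]
    exact hl

/-- **non-special families of `n` smooth special points, off any finite set**: the shape consumed
by `chartSupply_of_points`. -/
theorem exists_nsFamily [Nonempty ι] [Infinite (Place k Ft1)] [Infinite (Place k Ft2)]
    (hP : Function.Injective P) (hQ : Function.Injective Q)
    (hdeg₁ : ∀ v : Place k Ft1, v.deg = 1) (hdeg₂ : ∀ w : Place k Ft2, w.deg = 1)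
    (B₁ : Finset (Place k Ft1)) (hgood₁ : ∀ q : Place k Ft1, q ∉ B₁ → q ∈ Φ1.good)
    (B₂ : Finset (Place k Ft2)) (hgood₂ : ∀ q : Place k Ft2, q ∉ B₂ → q ∈ Φ2.good)
    (n : ℕ) (hn : (n : ℤ) ≤ gluedGenus k Ft1 Ft2 ι) (S : Finset (SpPt Φ1 Φ2)) :
    ∃ Qf : Fin n → SpPt Φ1 Φ2, Function.Injective Qf ∧ (∀ i, Qf i ∉ S) ∧
      NSOf P Q Φ1 Φ2 (Set.range Qf) := by
  obtain ⟨T, hcard, hdis, hl⟩ :=
    exists_nsFinset (Φ1 := Φ1) (Φ2 := Φ2) hP hQ hdeg₁ hdeg₂ B₁ hgood₁ B₂ hgood₂ n hn S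
  let e : Fin n ≃ T := (Finset.equivFinOfCardEq hcard).symm
  refine ⟨fun i => (e i : SpPt Φ1 Φ2), ?_, ?_, T, ?_, hl⟩
  · intro i j hij
    exact e.injective (Subtype.ext hij)
  · intro i hS
    exact Finset.disjoint_left.mp hdis (e i).2 hS
  · ext s
    constructor
    · intro hs
      exact ⟨e.symm ⟨s, hs⟩, by simp⟩
    · rintro ⟨i, rfl⟩
      exact (e i).2

end Family

/-! ### chart points of the glued frame from local chart points -/

section ChartPoints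

variable (hc : RedCompat R1 R2) (hB2 : Φ2.B = Φ1.B)
  (hexcl : ∀ (X : Place K F) (q : Place k Ft1) (q' : Place k Ft2),
    Φ1.rOf X = some q → Φ2.rOf X ≠ some q')
  {ι : Type*} (P : ι → Place k Ft1) (Q : ι → Place k Ft2) (g : ℤ)

/-- a local chart point on the first component is a chart point of the glued frame. -/
def cptOfLocal₁ {q : {q : Place k Ft1 // q ∈ Φ1.good}} (pt : ChartPt Φ1 q.1) :
    CPt (glueData hc Φ1 Φ2 hB2 hexcl P Q g) (Sum.inl q) where
  P := pt.P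
  hP := pt.hP
  t := pt.t
  ht := pt.ht
  ht0 := pt.ht0
  hpar := ⟨pt.ht.1, pt.hred, pt.hU⟩

/-- a local chart point on the second component is a chart point of the glued frame. -/
def cptOfLocal₂ {q : {q : Place k Ft2 // q ∈ Φ2.good}} (pt : ChartPt Φ2 q.1) :
    CPt (glueData hc Φ1 Φ2 hB2 hexcl P Q g) (Sum.inr q) where
  P := pt.P
  hP := pt.hP
  t := pt.t
  ht := ⟨show pt.t ∈ Φ1.B from hB2 ▸ pt.ht.1, pt.ht.2⟩
  ht0 := pt.ht0
  hpar := ⟨pt.ht.1, pt.hred, pt.hU⟩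

end ChartPoints

/-! ### the chart supply -/

section Supply

variable {ι : Type*} [Fintype ι] {P : ι → Place k Ft1} {Q : ι → Place k Ft2}
variable [FiniteResidues k Ft1] [HasPrincipalDivisors k Ft1] [Nonempty (Place k Ft1)]
variable [FiniteResidues k Ft2] [HasPrincipalDivisors k Ft2] [Nonempty (Place k Ft2)]

/-- **[ChartSupply²]** the chart supply of the nodal disc frame. -/
theorem chartSupply_glue [Nonempty ι] [Infinite (Place k Ft1)] [Infinite (Place k Ft2)]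
    (hc : RedCompat R1 R2) (hB2 : Φ2.B = Φ1.B)
    (hexcl : ∀ (X : Place K F) (q : Place k Ft1) (q' : Place k Ft2),
      Φ1.rOf X = some q → Φ2.rOf X ≠ some q') (g : ℤ)
    (hP : Function.Injective P) (hQ : Function.Injective Q)
    (hdeg₁ : ∀ v : Place k Ft1, v.deg = 1) (hdeg₂ : ∀ w : Place k Ft2, w.deg = 1)
    (B₁ : Finset (Place k Ft1)) (hgood₁ : ∀ q : Place k Ft1, q ∉ B₁ → q ∈ Φ1.good)
    (B₂ : Finset (Place k Ft2)) (hgood₂ : ∀ q : Place k Ft2, q ∉ B₂ → q ∈ Φ2.good)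
    (hpt : ∀ s : SpPt Φ1 Φ2, Nonempty (CPt (glueData hc Φ1 Φ2 hB2 hexcl P Q g) s))
    (n : ℕ) (hn : (n : ℤ) ≤ gluedGenus k Ft1 Ft2 ι) :
    ChartSupply (glueData hc Φ1 Φ2 hB2 hexcl P Q g) n :=
  chartSupply_of_points hpt fun S =>
    exists_nsFamily (Φ1 := Φ1) (Φ2 := Φ2) hP hQ hdeg₁ hdeg₂ B₁ hgood₁ B₂ hgood₂ n hn S

/-- **[ChartSupply²]** from local chart points over every smooth point of the two components. -/
theorem chartSupply_glue_of_local [Nonempty ι] [Infinite (Place k Ft1)] [Infinite (Place k Ft2)]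
    (hc : RedCompat R1 R2) (hB2 : Φ2.B = Φ1.B)
    (hexcl : ∀ (X : Place K F) (q : Place k Ft1) (q' : Place k Ft2),
      Φ1.rOf X = some q → Φ2.rOf X ≠ some q') (g : ℤ)
    (hP : Function.Injective P) (hQ : Function.Injective Q)
    (hdeg₁ : ∀ v : Place k Ft1, v.deg = 1) (hdeg₂ : ∀ w : Place k Ft2, w.deg = 1)
    (B₁ : Finset (Place k Ft1)) (hgood₁ : ∀ q : Place k Ft1, q ∉ B₁ → q ∈ Φ1.good)
    (B₂ : Finset (Place k Ft2)) (hgood₂ : ∀ q : Place k Ft2, q ∉ B₂ → q ∈ Φ2.good)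
    (hpt₁ : ∀ q ∈ Φ1.good, Nonempty (ChartPt Φ1 q))
    (hpt₂ : ∀ q ∈ Φ2.good, Nonempty (ChartPt Φ2 q))
    (n : ℕ) (hn : (n : ℤ) ≤ gluedGenus k Ft1 Ft2 ι) :
    ChartSupply (glueData hc Φ1 Φ2 hB2 hexcl P Q g) n :=
  chartSupply_glue hc hB2 hexcl g hP hQ hdeg₁ hdeg₂ B₁ hgood₁ B₂ hgood₂
    (fun s => match s with
      | Sum.inl q => ⟨cptOfLocal₁ hc hB2 hexcl P Q g (hpt₁ q.1 q.2).some⟩
      | Sum.inr q => ⟨cptOfLocal₂ hc hB2 hexcl P Q g (hpt₂ q.1 q.2).some⟩) n hn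

end Supply

end Fermat.Agent.GS.Frame.Glue
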