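/-
GATE-S (S33) / FRAME², layer L2 = GLUE (helper34), file 4: the assembly.

* `discFacts_glue`  : `GlueHyp … → DiscFacts (glueData …)`, no binder left
  ((F1)–(F5) `Loc/Facts.localFacts` (helper99, helper82, helper92) by cases, (F6) (F10)
  `Glue/Facts`, (F7) `Glue/F7.const_of_small_glue` (helper37), (F8) (F9) fields of `GlueHyp`);
* `discFacts_nodal` : the same for helper16's nodal `L`-space frame: `NodalHyp` + `FF2` ⟹
  `DiscFacts (glueData hc (fibreHyp1_of_nodal H hFF) (fibreHyp2_of_nodal H hFF) rfl _ P Q g)`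
  (`GlueHyp` from `Glue/Ball2.glueHyp_of_nodalHyp` (helper90) and `Nodal/L5.l5_field` (helper16)).
-/
import Mathlib
import Fermat.Agent.GS.Frame.Glue.Facts
import Fermat.Agent.GS.Frame.Glue.F7
import Fermat.Agent.GS.Frame.Glue.Ball2
import Fermat.Agent.GS.Frame.Loc.Facts
import Fermat.Agent.GS.Nodal.L5

set_option autoImplicit false

noncomputable section

open AlgebraicCurve

namespace Fermat.Agent.GS.Frame.Glue

open Fermat.Agent.RRh45 Fermat.Agent.GJ.J1 Fermat.Agent.GH Fermat.Agent.GK.MultiVal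
open Fermat.Agent.GS.Frame Fermat.Agent.GS.Frame.Local Fermat.Agent.GS.Nod

open scoped Classical

variable {K F k Ft1 Ft2 : Type*} [Field K] [Field F] [Algebra K F] [Field k]
  [Field Ft1] [Algebra k Ft1] [Field Ft2] [Algebra k Ft2]
variable {R1 : RedData K F k Ft1} {R2 : RedData K F k Ft2}

section Abstract

variable {hc : RedCompat R1 R2} {Φ1 : FibreHyp R1} {Φ2 : FibreHyp R2} {hB2 : Φ2.B = Φ1.B}
  {hexcl : ∀ (X : Place K F) (q : Place k Ft1) (q' : Place k Ft2),
    Φ1.rOf X = some q → Φ2.rOf X ≠ some q'}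
  {ι : Type*} {P : ι → Place k Ft1} {Q : ι → Place k Ft2} {g : ℤ}

/-- **The facts of the nodal disc frame.** -/
theorem discFacts_glue [FiniteResidues K F] [HasPrincipalDivisors K F] [Infinite k]
    (G : GlueHyp hc Φ1 Φ2 hB2 hexcl P Q g) :
    DiscFacts (glueData hc Φ1 Φ2 hB2 hexcl P Q g) :=
  discFacts_glue_of_F7 G (localFacts Φ1) (localFacts Φ2)
    (const_of_small_glue G (localFacts Φ1) (localFacts Φ2))

end Abstract

section Nodal

open Fermat.Agent.GS.Nodal.LSR2 Fermat.Agent.GS.Nodal.ROfSurj2 Fermat.Agent.GS.Nodal.FibreHyp2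

variable {hc : RedCompat R1 R2} {ι : Type*} {P : ι → Place k Ft1} {Q : ι → Place k Ft2}
  {C : Divisor K F} {C₁ : Divisor k Ft1} {C₂ : Divisor k Ft2} {g c : ℤ} {n₀ : ℕ}
variable [FiniteResidues K F] [HasPrincipalDivisors K F] [Nonempty (Place K F)]
variable [FiniteResidues k Ft1] [HasPrincipalDivisors k Ft1] [Nonempty (Place k Ft1)]
variable [FiniteResidues k Ft2] [HasPrincipalDivisors k Ft2] [Nonempty (Place k Ft2)]

/-- the exclusion hypothesis of `glueData` for the nodal `L`-space frame. -/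
theorem hexcl_nodal [Finite ι] [Infinite k] (H : NodalHyp hc P Q C C₁ C₂ g c n₀) {S1 : Set (Place k Ft1)}
    {S2 : Set (Place k Ft2)} (hFF : FF2 R1 R2 (disc1 H) (disc2 H) S1 S2) :
    ∀ (X : Place K F) (q : Place k Ft1) (q' : Place k Ft2),
      (fibreHyp1_of_nodal H hFF).rOf X = some q → (fibreHyp2_of_nodal H hFF).rOf X ≠ some q' :=
  fun X q q' => Fermat.Agent.GS.Nodal.L5.hexcl_of_nodal H hFF X q q'

/-- **`GlueHyp` of the nodal `L`-space frame.** -/
theorem glueHyp_nodal [Finite ι] [Infinite k] (H : NodalHyp hc P Q C C₁ C₂ g c n₀)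
    {S1 : Set (Place k Ft1)} {S2 : Set (Place k Ft2)}
    (hFF : FF2 R1 R2 (disc1 H) (disc2 H) S1 S2) :
    GlueHyp hc (fibreHyp1_of_nodal H hFF) (fibreHyp2_of_nodal H hFF) rfl (hexcl_nodal H hFF)
      P Q g :=
  Ball2.glueHyp_of_nodalHyp hc (fibreHyp1_of_nodal H hFF) (fibreHyp2_of_nodal H hFF) rfl
    (hexcl_nodal H hFF) P Q g H rfl rfl rfl
    (Fermat.Agent.GS.Nodal.L5.l5_field H hFF (hexcl_nodal H hFF) g)

/-- **The facts of the nodal `L`-space frame**: `NodalHyp` + `(FF2)` give all ten facts. -/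
theorem discFacts_nodal [Finite ι] [Infinite k] (H : NodalHyp hc P Q C C₁ C₂ g c n₀)
    {S1 : Set (Place k Ft1)} {S2 : Set (Place k Ft2)}
    (hFF : FF2 R1 R2 (disc1 H) (disc2 H) S1 S2) :
    DiscFacts (glueData hc (fibreHyp1_of_nodal H hFF) (fibreHyp2_of_nodal H hFF) rfl
      (hexcl_nodal H hFF) P Q g) :=
  discFacts_glue (glueHyp_nodal H hFF)

end Nodal

end Fermat.Agent.GS.Frame.Glue
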