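/-
GATE-F / FRAME², layer L2 = GLUE (helper92): the contract `ParamSurj` (`GS/Frame/Gen/ParamSurj`)
holds on the nodal disc frame `glueData` — every element of the maximal ideal of `A` is the value
of a chart parameter at exactly one point of its disc.

* `paramSurj_local`     : one component, from `Loc/Values.param_existsUnique` (the unit hypothesis
                          is the field `hU` of `ChartPt`);
* `paramSurj_glue`      : `ParamSurj (glueData hc Φ1 Φ2 hB2 hexcl P Q g)`, by cases on the component;
* `paramSurj_glue_unique` : the `∃!` form.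
-/
import Mathlib
import Fermat.Agent.GS.Frame.Gen.ParamSurj
import Fermat.Agent.GS.Frame.Glue.Facts
import Fermat.Agent.GS.Frame.Loc.Values

set_option autoImplicit false

noncomputable section

open AlgebraicCurve

namespace Fermat.Agent.GS.Frame.Glue

open Fermat.Agent.RRh45 Fermat.Agent.GJ.J1 Fermat.Agent.GH Fermat.Agent.GK.MultiVal
open Fermat.Agent.GS.Frame Fermat.Agent.GS.Frame.Local Fermat.Agent.GS.Nod

open scoped Classical

variable {K F k Ft1 Ft2 : Type*} [Field K] [Field F] [Algebra K F] [Field k]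
  [Field Ft1] [Algebra k Ft1] [Field Ft2] [Algebra k Ft2]
variable {R1 : RedData K F k Ft1} {R2 : RedData K F k Ft2}
variable [HasPrincipalDivisors K F]

/-- one component: every small `a` is the value of the parameter of a chart point at exactly one
point of its disc. -/
theorem paramSurj_local {Ft : Type*} [Field Ft] [Algebra k Ft] {R : RedData K F k Ft}
    {Φ : FibreHyp R} {q : Place k Ft} (pt : ChartPt Φ q) {a : K} (ha : R.A.valuation a < 1) :
    ∃! X : Place K F, X ∈ Local.disc Φ q ∧ ValueAt X pt.t a :=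
  param_existsUnique pt.ht pt.hQ pt.hred ha
    (pt.hU a ((R.A.valuation_le_one_iff a).mp ha.le))

variable {hc : RedCompat R1 R2} {Φ1 : FibreHyp R1} {Φ2 : FibreHyp R2} {hB2 : Φ2.B = Φ1.B}
  {hexcl : ∀ (X : Place K F) (q : Place k Ft1) (q' : Place k Ft2),
    Φ1.rOf X = some q → Φ2.rOf X ≠ some q'}
  {ι : Type*} {P : ι → Place k Ft1} {Q : ι → Place k Ft2} {g : ℤ}

/-- the `∃!` form of `ParamSurj` on the nodal disc frame. -/
theorem paramSurj_glue_unique {s : SpPt Φ1 Φ2}
    (pt : CPt (glueData hc Φ1 Φ2 hB2 hexcl P Q g) s) {a : K}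
    (ha : (glueData hc Φ1 Φ2 hB2 hexcl P Q g).A.valuation a < 1) :
    ∃! X : Place K F, X ∈ (glueData hc Φ1 Φ2 hB2 hexcl P Q g).disc s ∧ ValueAt X pt.t a := by
  rcases s with q | q
  · exact paramSurj_local (cptL pt) ha
  · have ha2 : R2.A.valuation a < 1 := by
      have h : R1.A.valuation a < 1 := ha
      rw [← hc.A_eq]
      exact h
    exact paramSurj_local (cptR pt) ha2

/-- **`ParamSurj` on the nodal disc frame.** -/
theorem paramSurj_glue : ParamSurj (glueData hc Φ1 Φ2 hB2 hexcl P Q g) := fun pt a ha => by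
  obtain ⟨X, ⟨hX, hv⟩, -⟩ := paramSurj_glue_unique pt ha
  exact ⟨X, hX, hv⟩

end Fermat.Agent.GS.Frame.Glue
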